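import Fermat.Agent.TWLoc.TwistExact
import Fermat.Agent.CondLevel.Inputs
import Fermat.Agent.CondLevel.Compare
import Fermat.Agent.Density.Rep
import Fermat.Agent.Eigen.Dictionary
import Fermat.Prelude.Def_GaloisRep_ComplexConjugation

/-!
# Inertia at `q` is not unipotent on a twisted system

The Galois representation of the twist of an eigen class with nebentypus `χ²` at `q` has a
non-trivial inertia eigenvalue at `q`, from the type of S36 and the exactness of the level.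
-/

set_option autoImplicit false

noncomputable section

open Polynomial CongruenceSubgroup ModularCurve IsLocalRing
open Fermat.Agent.TW.Mod
open Fermat.Agent.Newforms (S2)

namespace Fermat.Agent.TWLoc

local notation "GQ" => AlgebraicClosure ℚ ≃ₐ[ℚ] AlgebraicClosure ℚ

section BaseChange

variable {O O' : Type} [CommRing O] [IsLocalRing O] [CommRing O'] [IsLocalRing O']

lemma charpoly_baseChangeAlong (φ : O →+* O') (hφ : IsLocalHom φ) (ρ : GaloisRepAdic O) (τ : GQ) :
    LinearMap.charpoly ((ρ.baseChangeAlong φ hφ).ρ τ) = (LinearMap.charpoly (ρ.ρ τ)).map φ := by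
  letI : Algebra O O' := φ.toAlgebra
  exact LinearMap.charpoly_baseChange (A := O') (ρ.ρ τ)

end BaseChange

section Transfer

variable {O O' : Type} [CommRing O] [IsLocalRing O] [CommRing O'] [IsLocalRing O']
  [Algebra O O'] [hloc : IsLocalHom (algebraMap O O')]

/-- Agreement at Frobenius elements with a representation over a smaller ring holds everywhere. -/
lemma charpoly_eq_map_of_frobenius [IsHausdorff (maximalIdeal O') O'] (ρ : GaloisRepAdic O)
    (ρ' : GaloisRepAdic O') (S : Finset ℕ)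
    (h : ∀ ℓ : ℕ, ℓ.Prime → ℓ ∉ S → ∀ A : ValuationSubring (AlgebraicClosure ℚ),
      A.LiesOverPrime ℓ → ∀ σ : GQ, A.IsFrobeniusAt σ ℓ →
        LinearMap.charpoly (ρ'.ρ σ) = (LinearMap.charpoly (ρ.ρ σ)).map (algebraMap O O'))
    (σ : GQ) : LinearMap.charpoly (ρ'.ρ σ) = (LinearMap.charpoly (ρ.ρ σ)).map (algebraMap O O') := by
  have key : ∀ τ, LinearMap.charpoly ((ρ.baseChangeAlong (algebraMap O O') hloc).ρ τ) =
      (LinearMap.charpoly (ρ.ρ τ)).map (algebraMap O O') := fun τ => by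
    exact charpoly_baseChangeAlong (algebraMap O O') hloc ρ τ
  rw [← key σ]
  exact Density.charpoly_eq_of_forall_frobenius ρ' _ S
    (fun ℓ hℓ hS A hA τ hτ => by rw [h ℓ hℓ hS A hA τ hτ, key τ]) σ

/-- Irreducibility and oddness of the residual representation transfer. -/
lemma residual_absIrr_of_charpoly (h2 : (2 : ResidueField O') ≠ 0) (ρ : GaloisRepAdic O)
    (hirr : ρ.residual.IsIrreducible) (hodd : ρ.residual.IsOdd) (ρ' : GaloisRepAdic O')
    (h : ∀ σ : GQ, LinearMap.charpoly (ρ'.ρ σ) =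
      (LinearMap.charpoly (ρ.ρ σ)).map (algebraMap O O')) :
    ρ'.residual.IsAbsolutelyIrreducible ∧ ρ'.residual.IsOdd := by
  have htd : ∀ σ : GQ, LinearMap.trace O' ρ'.V (ρ'.ρ σ) =
      algebraMap O O' (LinearMap.trace O ρ.V (ρ.ρ σ)) ∧
      LinearMap.det (ρ'.ρ σ) = algebraMap O O' (LinearMap.det (ρ.ρ σ)) := fun σ => by
    refine CondLevel.trace_det_of_charpoly ρ'.finrank_eq _ ?_
    rw [h σ, Density.charpoly_fin_two_eq ρ.finrank_eq]
    simp
  let ι : ResidueField O →+* ResidueField O' := ResidueField.map (algebraMap O O')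
  have hres : ∀ σ : GQ, LinearMap.trace _ ρ'.residual.V (ρ'.residual.ρ σ) =
      ι (LinearMap.trace _ ρ.residual.V (ρ.residual.ρ σ)) ∧
      LinearMap.det (ρ'.residual.ρ σ) = ι (LinearMap.det (ρ.residual.ρ σ)) := fun σ =>
    ⟨(LinearMap.trace_baseChange _ _).trans ((congrArg (residue O') (htd σ).1).trans
        ((congrArg ι (LinearMap.trace_baseChange (ρ.ρ σ) (ResidueField O))).trans
          (ResidueField.map_residue _ _)).symm),
      (LinearMap.det_baseChange (A := ResidueField O') _).trans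
        ((congrArg (residue O') (htd σ).2).trans
          ((congrArg ι (LinearMap.det_baseChange (A := ResidueField O) (ρ.ρ σ))).trans
            (ResidueField.map_residue _ _)).symm)⟩
  have hc := complexConjugation_mul_self
  refine ⟨CondLevel.isAbsolutelyIrreducible_of_trace_det h2 ι ρ.residual.finrank_eq ρ.residual.ρ
      hirr complexConjugation hc (hodd _ hc CondLevel.complexConjugation_ne_one) ρ'.residual
      (fun σ => (hres σ).1) (fun σ => (hres σ).2), fun c hcc hne => ?_⟩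
  rw [(hres c).2, hodd c hcc hne, map_neg, map_one]

end Transfer

variable {N q : ℕ} [hq : Fact q.Prime] [hqN : Fact (¬ q ∣ N)] [NeZero N]
variable {χ : (ZMod q)ˣ →* ℂˣ} {c : Der (epsOf (sqTwistChar N χ)) ℂ} {lam : ℕ → ℂ}

/-- An eigen class with nebentypus `χ² ≠ 1` at `q` gives a representation which is not unipotent on
inertia at `q`, after twisting by `χ⁻¹`. -/
theorem not_isUnipotentOnInertiaAt_of_twist (h36 : CondLevel.CarayolNotUnipotent)
    (hη : ∃ u, χ u ^ 2 ≠ 1) (hne : ∀ b : ℂ, c ≠ cobound _ ℂ b)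
    (hc : IsEigenClass χ c lam) {α : ℂ} (hα : α ≠ 0)
    (hU : ∃ a : ℂ, derT (sqTwistChar N χ) ℂ q c = α • c + cobound (epsOf (sqTwistChar N χ)) ℂ a)
    (hpar : twistHom N χ ℂ c ∈ Period.parabolicHoms ℂ (Gamma0 (N * q * q)) ℂ)
    {p : ℕ} [Fact p.Prime] (hp2 : p ≠ 2) (hqp : q ≠ p)
    (S : Finset ℕ) (hpS : p ∈ S) (hqS : q ∈ S) (hNS : ∀ l : ℕ, l.Prime → l ∣ N → l ∈ S)
    {O : Type} [CommRing O] [IsDomain O] [IsDiscreteValuationRing O]
    [IsAdicComplete (maximalIdeal O) O] [Finite (ResidueField O)] [CharZero O]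
    (hpO : (p : O) ∈ maximalIdeal O)
    (R : Subring ℂ) (θ : R →+* O)
    (hR : ∀ l : ℕ, l.Prime → l ∉ S → twistedLam χ lam l ∈ R)
    (ρ : GaloisRepAdic O) (hirr : ρ.residual.IsIrreducible) (hodd : ρ.residual.IsOdd)
    (hρ : ∀ (l : ℕ) (hl : l.Prime) (hlS : l ∉ S),
      ∀ A : ValuationSubring (AlgebraicClosure ℚ), A.LiesOverPrime l →
        ∀ σ : GQ, A.IsFrobeniusAt σ l →
          LinearMap.charpoly (ρ.ρ σ) = X ^ 2 - C (θ ⟨_, hR l hl hlS⟩) * X + C (l : O)) :
    ¬ ρ.IsUnipotentOnInertiaAt q := by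
  classical
  obtain ⟨M, g, hg, hMN, hMq, hgl⟩ := exists_newform_of_twist hη hne hc hα hU hpar
  have hN2 : N * q ^ 2 ≠ 0 := mul_ne_zero (NeZero.ne N) (pow_ne_zero 2 hq.out.ne_zero)
  haveI : NeZero M := ⟨ne_zero_of_dvd_ne_zero hN2 hMN⟩
  have hMS : ∀ r : ℕ, r.Prime → r ∣ M → r ∈ S := fun r hr hd => by
    rcases hr.dvd_mul.1 (hd.trans hMN) with h | h
    · exact hNS r hr h
    · exact (Nat.prime_dvd_prime_iff_eq hr hq.out).1 (hr.dvd_of_dvd_pow h) ▸ hqS
  set chig := Eigen.eigenChar hg.1 (↑S : Set ℕ)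
  have hgS : ∀ (l : ℕ), l.Prime → l ∉ (↑S : Set ℕ) →
      ModularFormClass.qCoeff g l = twistedLam χ lam l := fun l hl hlS =>
    hgl l hl (fun hd => hlS (Finset.mem_coe.2 (hNS l hl hd)))
      fun e => hlS (Finset.mem_coe.2 (e ▸ hqS))
  have hle : chig.range ≤ R := by
    rintro _ ⟨⟨x, hx⟩, rfl⟩
    induction hx using Algebra.adjoin_induction with
    | mem x hx =>
      rcases hx with ⟨l, hl, hlM, hlS, rfl⟩ | ⟨r, hrM, hr, hrS, rfl⟩
      · refine (congrArg (· ∈ R) ?_).mpr (hR l hl fun h => hlS (Finset.mem_coe.2 h))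
        exact (Eigen.eigenChar_T hg.1 _ hl hlM hlS).trans (hgS l hl hlS)
      · exact absurd (Finset.mem_coe.2 (hMS r hr hrM)) hrS
    | algebraMap n =>
      rw [show (⟨algebraMap ℤ _ n, Subalgebra.algebraMap_mem _ n⟩ :
        ↥(CuspForm.heckeAlgebra M 2 (↑S : Set ℕ))) = (n : ↥(CuspForm.heckeAlgebra M 2 (↑S : Set ℕ)))
          from Subtype.ext (by simp), map_intCast]
      exact intCast_mem R n
    | add x y hx hy ihx ihy =>
      rw [show (⟨x + y, Subalgebra.add_mem _ hx hy⟩ : ↥(CuspForm.heckeAlgebra M 2 (↑S : Set ℕ))) =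
        ⟨x, hx⟩ + ⟨y, hy⟩ from rfl, map_add]
      exact R.add_mem ihx ihy
    | mul x y hx hy ihx ihy =>
      rw [show (⟨x * y, Subalgebra.mul_mem _ hx hy⟩ : ↥(CuspForm.heckeAlgebra M 2 (↑S : Set ℕ))) =
        ⟨x, hx⟩ * ⟨y, hy⟩ from rfl, map_mul]
      exact R.mul_mem ihx ihy
  set iota : chig.range →+* O := θ.comp (Subring.inclusion hle)
  have hiota : ∀ (l : ℕ) (hl : l.Prime) (hlM : ¬ l ∣ M) (hlS : l ∉ (↑S : Set ℕ)),
      (iota.comp chig.rangeRestrict) (CuspForm.heckeAlgebra.T hl hlM hlS) =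
        θ ⟨_, hR l hl fun h => hlS (Finset.mem_coe.2 h)⟩ := fun l hl hlM hlS =>
    congrArg θ (Subtype.ext ((Eigen.eigenChar_T hg.1 _ hl hlM hlS).trans (hgS l hl hlS)))
  have hagree : ∀ (O' : Type) [CommRing O'] [IsLocalRing O'] [IsHausdorff (maximalIdeal O') O']
      [Algebra O O'] [IsLocalHom (algebraMap O O')] (ρ' : GaloisRepAdic O'),
      (∀ (l : ℕ) (hl : l.Prime) (_ : l ≠ p) (hlM : ¬ l ∣ M) (hlS : l ∉ (↑S : Set ℕ)),
        ∀ A : ValuationSubring (AlgebraicClosure ℚ), A.LiesOverPrime l →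
          ∀ σ : GQ, A.IsFrobeniusAt σ l → LinearMap.charpoly (ρ'.ρ σ) =
            X ^ 2 - C (algebraMap O O' ((iota.comp chig.rangeRestrict)
              (CuspForm.heckeAlgebra.T hl hlM hlS))) * X + C ((l : O'))) →
      ∀ σ : GQ, LinearMap.charpoly (ρ'.ρ σ) =
        (LinearMap.charpoly (ρ.ρ σ)).map (algebraMap O O') := by
    intro O' _ _ _ _ _ ρ' h' σ
    refine charpoly_eq_map_of_frobenius ρ ρ' S (fun l hl hlS A hA τ hτ => ?_) σ
    have hlS' : l ∉ (↑S : Set ℕ) := fun h => hlS (Finset.mem_coe.1 h)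
    rw [hρ l hl hlS A hA τ hτ, h' l hl (fun e => hlS (e ▸ hpS))
      (fun hd => hlS (hMS l hl hd)) hlS' A hA τ hτ, hiota l hl _ hlS']
    simp
  obtain ⟨O'', _, _, _, _, _, _, _, _, _, hinj, ρ'', hρ'', hnu⟩ :=
    h36 hg p S O hpO hp2 chig (fun l hl hlM hlS => Eigen.eigenChar_T hg.1 _ hl hlM hlS) iota hpS
      hMS (by
        intro O' _ _ _ _ _ _ _ _ _ _ ρ' hρ'
        have hp' : (p : O') ∈ maximalIdeal O' := by
          rw [← map_natCast (algebraMap O O')]
          exact map_nonunit _ _ hpO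
        haveI : CharP (ResidueField O') p := CondLevel.charP_residueField p hp'
        exact residual_absIrr_of_charpoly
          (Ring.two_ne_zero (by rw [ringChar.eq (ResidueField O') p]; exact hp2)) ρ hirr hodd ρ'
          (hagree O' ρ' hρ'))
  intro hun
  refine hnu q hq.out hqp hMq fun A hA σ hσ => ?_
  rw [hagree O'' ρ'' (fun l hl _ => hρ'' l hl) σ, hun A hA σ hσ]
  simp

end Fermat.Agent.TWLoc
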