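import Fermat.Agent.TWLoc.TwistKill
import Fermat.Agent.Newforms.Degeneracy
import Mathlib.NumberTheory.ModularForms.QExpansion

/-!
# Depletion of eigenforms at finitely many primes

Euler factors `1 - c B_l + e B_l²` (with `B_l : f(τ) ↦ f(lτ)`) acting on coefficient sequences, on
cusp forms and on functions, periodicity of forms supported on multiples of `q`, and injectivity
of the Euler factors on decaying periodic functions.
-/

set_option autoImplicit false

noncomputable section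

open UpperHalfPlane ModularFormClass ModularForm Filter Topology
open scoped MatrixGroups ModularForm Manifold

namespace Fermat.Agent.TWLoc

open Newforms (S2)

/-- `B_l` on coefficient sequences. -/
def seqB (l : ℕ) (a : ℕ → ℂ) (n : ℕ) : ℂ := if l ∣ n then a (n / l) else 0

/-- The Euler factor on coefficient sequences. -/
def seqD (l : ℕ) (c e : ℂ) (a : ℕ → ℂ) (n : ℕ) : ℂ :=
  a n - c * seqB l a n + e * seqB l (seqB l a) n

/-- The recursion of an eigen system at `l`. -/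
def IsRec (l : ℕ) (c e : ℂ) (a : ℕ → ℂ) : Prop := ∀ n, a (n * l) = c * a n - e * seqB l a n

variable {l l' : ℕ} {c e : ℂ} {a : ℕ → ℂ}

lemma seqB_mul (hl : 0 < l) (m : ℕ) : seqB l a (m * l) = a m := by
  rw [seqB, if_pos (dvd_mul_left l m), Nat.mul_div_cancel _ hl]

lemma seqB_of_not_dvd {n : ℕ} (h : ¬ l ∣ n) : seqB l a n = 0 := if_neg h

lemma IsRec.seqD_eq (hl : 0 < l) (h : IsRec l c e a) (n : ℕ) :
    seqD l c e a n = if l ∣ n then 0 else a n := by
  split_ifs with hn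
  · obtain ⟨m, rfl⟩ := hn
    rw [mul_comm l m, seqD, seqB_mul hl, seqB_mul hl, h m]
    ring
  · rw [seqD, seqB_of_not_dvd hn, seqB_of_not_dvd hn]
    ring

lemma seqB_comm (hl : 0 < l) (hl' : 0 < l') (hcop : l.Coprime l') (n : ℕ) :
    seqB l (seqB l' a) n = seqB l' (seqB l a) n := by
  by_cases hn : l * l' ∣ n
  · obtain ⟨m, rfl⟩ := hn
    conv_lhs => rw [show l * l' * m = (m * l') * l by ring, seqB_mul hl, seqB_mul hl']
    conv_rhs => rw [show l * l' * m = (m * l) * l' by ring, seqB_mul hl', seqB_mul hl]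
  · have key : ∀ {x y : ℕ}, 0 < x → ¬ x * y ∣ n → seqB x (seqB y a) n = 0 := by
      intro x y hx hxy
      by_cases hd : x ∣ n
      · obtain ⟨m, rfl⟩ := hd
        rw [mul_comm x m, seqB_mul hx, seqB_of_not_dvd fun hy ↦ hxy (mul_dvd_mul_left x hy)]
      · exact seqB_of_not_dvd hd
    rw [key hl hn, key hl' (by rwa [mul_comm])]

lemma IsRec.seqB (hl : 0 < l) (hl' : 0 < l') (hcop : l.Coprime l') (h : IsRec l c e a) :
    IsRec l c e (seqB l' a) := by
  intro n
  rw [seqB_comm hl hl' hcop]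
  by_cases hn : l' ∣ n
  · obtain ⟨m, rfl⟩ := hn
    rw [show l' * m * l = (m * l) * l' by ring, mul_comm l' m, seqB_mul hl', seqB_mul hl',
      seqB_mul hl', h m]
  · rw [seqB_of_not_dvd hn, seqB_of_not_dvd hn,
      seqB_of_not_dvd fun hd ↦ hn (hcop.symm.dvd_of_dvd_mul_right hd)]
    ring

lemma IsRec.add {b : ℕ → ℂ} (h : IsRec l c e a) (h' : IsRec l c e b) (x y : ℂ) :
    IsRec l c e fun n ↦ x * a n + y * b n := by
  intro n
  show x * a (n * l) + y * b (n * l) = c * (x * a n + y * b n) - e * TWLoc.seqB l _ n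
  rw [h n, h' n]
  by_cases hn : l ∣ n <;> simp [TWLoc.seqB, hn] <;> ring

lemma IsRec.seqD (hl : 0 < l) (hl' : 0 < l') (hcop : l.Coprime l') (h : IsRec l c e a)
    (c' e' : ℂ) : IsRec l c e (seqD l' c' e' a) := by
  have h1 := h.seqB hl hl' hcop
  have h2 := h1.seqB hl hl' hcop
  have := (h.add h1 1 (-c')).add h2 1 e'
  convert this using 2 with n
  simp only [TWLoc.seqD]
  ring

/-- All Euler factors of a list of primes. -/
def seqDAll (c e : ℕ → ℂ) : List ℕ → (ℕ → ℂ) → (ℕ → ℂ)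
  | [], a => a
  | l :: T, a => seqD l (c l) (e l) (seqDAll c e T a)

lemma isRec_seqDAll {cf ef : ℕ → ℂ} (hl : l.Prime) : ∀ {T : List ℕ}, l ∉ T →
    (∀ x ∈ T, x.Prime) → IsRec l c e a → IsRec l c e (seqDAll cf ef T a)
  | [], _, _, h => h
  | x :: T, hlT, hT, h => by
    have hx := hT x List.mem_cons_self
    refine (isRec_seqDAll hl (fun hh ↦ hlT (List.mem_cons_of_mem x hh))
      (fun y hy ↦ hT y (List.mem_cons_of_mem x hy)) h).seqD hl.pos hx.pos ?_ _ _
    exact (Nat.coprime_primes hl hx).mpr fun hh ↦ hlT (hh ▸ List.mem_cons_self)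

lemma seqDAll_eq {cf ef : ℕ → ℂ} : ∀ {T : List ℕ}, T.Nodup → (∀ x ∈ T, x.Prime) →
    (∀ x ∈ T, IsRec x (cf x) (ef x) a) → ∀ n,
      seqDAll cf ef T a n = if ∀ x ∈ T, ¬ x ∣ n then a n else 0
  | [], _, _, _, n => by simp [seqDAll]
  | x :: T, hd, hT, h, n => by
    rw [List.nodup_cons] at hd
    have hx := hT x List.mem_cons_self
    have hrec := isRec_seqDAll (cf := cf) (ef := ef) hx hd.1
      (fun y hy ↦ hT y (List.mem_cons_of_mem x hy)) (h x List.mem_cons_self)
    rw [seqDAll, hrec.seqD_eq hx.pos, seqDAll_eq hd.2 (fun y hy ↦ hT y (List.mem_cons_of_mem x hy))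
      (fun y hy ↦ h y (List.mem_cons_of_mem x hy))]
    simp only [List.forall_mem_cons]
    by_cases hxn : x ∣ n <;> simp [hxn]

/-- The Euler factor on functions. -/
def opD (l : ℕ) (c e : ℂ) (φ : ℍ → ℂ) : ℍ → ℂ :=
  φ - (c * (l : ℂ)⁻¹) • scaleOp l φ + (e * ((l : ℂ)⁻¹ * (l : ℂ)⁻¹)) • scaleOp l (scaleOp l φ)

/-- All Euler factors on functions. -/
def opDAll (c e : ℕ → ℂ) : List ℕ → (ℍ → ℂ) → (ℍ → ℂ)
  | [], φ => φ
  | l :: T, φ => opD l (c l) (e l) (opDAll c e T φ)

/-- The level after depletion. -/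
def levelAll : List ℕ → ℕ → ℕ
  | [], L => L
  | l :: T, L => levelAll T L * (l * l)

lemma levelAll_ne_zero : ∀ {T : List ℕ} {L : ℕ}, L ≠ 0 → (∀ x ∈ T, x ≠ 0) → levelAll T L ≠ 0
  | [], _, hL, _ => hL
  | x :: T, L, hL, hT => mul_ne_zero (levelAll_ne_zero hL fun y hy ↦ hT y (List.mem_cons_of_mem x hy))
      (mul_ne_zero (hT x List.mem_cons_self) (hT x List.mem_cons_self))

lemma levelAll_eq : ∀ (T : List ℕ) (L : ℕ), levelAll T L = L * levelAll T 1
  | [], L => by simp [levelAll]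
  | x :: T, L => by rw [levelAll, levelAll, levelAll_eq T L, mul_assoc]

lemma exists_opD_form {M : ℕ} [NeZero M] [NeZero l] (h : S2 M) (c e : ℂ) :
    ∃ E : S2 (M * (l * l)), ⇑E = opD l c e h ∧ ∀ n, qCoeff E n = seqD l c e (qCoeff h) n := by
  haveI : NeZero (M * (l * l)) := ⟨mul_ne_zero (NeZero.ne M) (mul_ne_zero (NeZero.ne l) (NeZero.ne l))⟩
  haveI : NeZero (M * l) := ⟨mul_ne_zero (NeZero.ne M) (NeZero.ne l)⟩
  have h1 : M * l ∣ M * (l * l) := mul_dvd_mul_left M (dvd_mul_right l l)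
  have h2 : M * l * l ∣ M * (l * l) := (mul_assoc M l l).dvd
  refine ⟨Newforms.raiseLin (dvd_mul_right M (l * l)) h - c • Newforms.degen l h1 h +
    e • Newforms.degen l h2 (Newforms.degen l (dvd_refl (M * l)) h), ?_, fun n ↦ ?_⟩
  · rw [FunLike.coe_add, FunLike.coe_sub, FunLike.coe_smul, FunLike.coe_smul,
      Newforms.coe_raiseLin, Newforms.coe_degen, Newforms.coe_degen, Newforms.coe_degen, opD]
    simp only [smul_smul]
    congr 1
    rw [show ((l : ℂ)⁻¹ • (⇑h ∣[(2 : ℤ)] heckeDiagMatrix l)) ∣[(2 : ℤ)] heckeDiagMatrix l =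
      (l : ℂ)⁻¹ • scaleOp l (scaleOp l ⇑h) from scaleOp_smul _, smul_smul, mul_assoc]
  · rw [Newforms.qCoeff_add, Newforms.qCoeff_sub, Newforms.qCoeff_smul, Newforms.qCoeff_smul,
      Newforms.qCoeff_degen, Newforms.qCoeff_degen, Newforms.coe_raiseLin]
    simp only [seqD, seqB, Newforms.qCoeff_degen]

lemma exists_opDAll_form (cf ef : ℕ → ℂ) : ∀ (T : List ℕ) {M : ℕ} [NeZero M],
    (∀ x ∈ T, x ≠ 0) → ∀ h : S2 M, ∃ E : S2 (levelAll T M),
      ⇑E = opDAll cf ef T h ∧ ∀ n, qCoeff E n = seqDAll cf ef T (qCoeff h) n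
  | [], _, _, _, h => ⟨h, rfl, fun _ ↦ rfl⟩
  | x :: T, M, _, hT, h => by
    obtain ⟨E, hE, hEn⟩ := exists_opDAll_form cf ef T
      (fun y hy ↦ hT y (List.mem_cons_of_mem x hy)) h
    haveI : NeZero x := ⟨hT x List.mem_cons_self⟩
    haveI : NeZero (levelAll T M) :=
      ⟨levelAll_ne_zero (NeZero.ne M) fun y hy ↦ hT y (List.mem_cons_of_mem x hy)⟩
    obtain ⟨E', hE', hEn'⟩ := exists_opD_form (l := x) E (cf x) (ef x)
    refine ⟨E', hE'.trans (congrArg (opD x (cf x) (ef x)) hE), fun n ↦ (hEn' n).trans ?_⟩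
    show seqD x (cf x) (ef x) (qCoeff E) n = seqD x (cf x) (ef x) (seqDAll cf ef T (qCoeff h)) n
    rw [show qCoeff E = seqDAll cf ef T (qCoeff h) from funext hEn]

/-- A form supported on multiples of `q` becomes `1`-periodic after `τ ↦ τ/q`. -/
lemma slash_heckeMatrix_slash_T {M q : ℕ} [NeZero M] (hq : q ≠ 0) (E : S2 M)
    (h : ∀ n, ¬ q ∣ n → qCoeff E n = 0) :
    (⇑E ∣[(2 : ℤ)] heckeMatrix q 0) ∣[(2 : ℤ)] ModularGroup.T =
      ⇑E ∣[(2 : ℤ)] heckeMatrix q 0 := by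
  funext τ
  rw [SL_slash_apply, slash_heckeMatrix_apply 2 hq, slash_heckeMatrix_apply 2 hq]
  have hden : denom (ModularGroup.T : SL(2, ℤ)) (τ : ℂ) = 1 := by
    rw [ModularGroup.denom_apply]
    simp [ModularGroup.coe_T]
  rw [hden, one_zpow, mul_one]
  congr 1
  have hcoe : ((heckeMatrix q 0 • (ModularGroup.T • τ) : ℍ) : ℂ) =
      ((heckeMatrix q 0 • τ : ℍ) : ℂ) + 1 / q := by
    rw [coe_heckeMatrix_smul hq, coe_heckeMatrix_smul hq, modular_T_smul, coe_vadd]
    push_cast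
    ring
  refine (Newforms.hasSum_qCoeff E _).unique ?_
  convert Newforms.hasSum_qCoeff E (heckeMatrix q 0 • τ) using 2 with n
  by_cases hn : q ∣ n
  · congr 1
    rw [hcoe, Function.Periodic.qParam, Function.Periodic.qParam, ← Complex.exp_nat_mul,
      ← Complex.exp_nat_mul]
    obtain ⟨m, rfl⟩ := hn
    refine Complex.exp_eq_exp_iff_exists_int.mpr ⟨(m : ℤ), ?_⟩
    have hq' : (q : ℂ) ≠ 0 := Nat.cast_ne_zero.mpr hq
    push_cast
    field_simp
  · rw [h n hn, zero_mul, zero_mul]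

section Decay

variable {φ : ℍ → ℂ}

/-- A periodic cuspidal function decays exponentially. -/
lemma exists_decay (hφ : Newforms.IsCuspidal φ) {q : ℕ} (hq : q ≠ 0)
    (hper : φ ∣[(2 : ℤ)] (ModularGroup.T ^ q) = φ) :
    ∃ C A c : ℝ, 0 < c ∧ ∀ τ : ℍ, A ≤ τ.im → ‖φ τ‖ ≤ C * Real.exp (-c * τ.im) := by
  have hfix : ∀ τ : ℍ, φ ((q : ℝ) +ᵥ τ) = φ τ := fun τ ↦ by
    have := congr_fun hper τ
    have hd : denom (ModularGroup.T ^ (q : ℤ) : SL(2, ℤ)) (τ : ℂ) = 1 := by
      rw [ModularGroup.denom_apply, ModularGroup.coe_T_zpow]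
      simp
    rw [← zpow_natCast ModularGroup.T, SL_slash_apply, hd, one_zpow, mul_one,
      modular_T_zpow_smul] at this
    exact_mod_cast this
  have hper' : Function.Periodic (φ ∘ ofComplex) (q : ℝ) := by
    intro w
    by_cases hw : 0 < w.im
    · have hw' : 0 < (w + (q : ℝ)).im := by simpa using hw
      simp only [Function.comp_apply, ofComplex_apply_of_im_pos hw, ofComplex_apply_of_im_pos hw']
      convert hfix ⟨w, hw⟩ using 2
      exact UpperHalfPlane.ext (by simp [add_comm])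
    · simp only [Function.comp_apply,
        ofComplex_apply_of_im_nonpos (show w.im ≤ 0 from not_lt.mp hw),
        ofComplex_apply_of_im_nonpos (show (w + (q : ℝ)).im ≤ 0 by simpa using not_lt.mp hw)]
  have hinf : IsCusp OnePoint.infty 𝒮ℒ := isCusp_SL2Z_iff.mpr ⟨OnePoint.infty, rfl⟩
  have hzero : IsZeroAtImInfty φ := OnePoint.isZeroAt_infty_iff.mp (hφ.zero _ hinf)
  have hO := hzero.exp_decay_atImInfty (by exact_mod_cast Nat.pos_of_ne_zero hq) hper' hφ.holo
    hzero.isBoundedAtImInfty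
  obtain ⟨C, hC⟩ := hO.bound
  obtain ⟨A, hA⟩ := (atImInfty_mem _).mp hC
  refine ⟨C, A, 2 * Real.pi / q, by positivity, fun τ hτ ↦ ?_⟩
  refine (hA τ hτ).trans (le_of_eq ?_)
  rw [Real.norm_eq_abs, abs_of_pos (Real.exp_pos _)]
  congr 2
  ring

/-- The Euler factors are injective on decaying functions. -/
lemma eq_zero_of_opD_eq_zero (hl : 2 ≤ l) (c e : ℂ)
    (hdec : ∃ C A k : ℝ, 0 < k ∧ ∀ τ : ℍ, A ≤ τ.im → ‖φ τ‖ ≤ C * Real.exp (-k * τ.im))
    (h : opD l c e φ = 0) : φ = 0 := by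
  obtain ⟨C, A, k, hk, hb⟩ := hdec
  haveI : NeZero l := ⟨by omega⟩
  have hl0 : (l : ℂ) ≠ 0 := Nat.cast_ne_zero.mpr (NeZero.ne l)
  set sc : ℍ → ℍ := fun τ ↦ heckeDiagMatrix l • τ with hsc
  have him : ∀ τ, (sc τ).im = l * τ.im := fun τ ↦ by
    show ((sc τ : ℍ) : ℂ).im = _
    rw [hsc, coe_heckeDiagMatrix_smul (NeZero.ne l)]
    simp
  have hrec : ∀ τ, φ τ = c * φ (sc τ) - e * φ (sc (sc τ)) := fun τ ↦ by
    have := congr_fun h τ
    simp only [opD, Pi.add_apply, Pi.sub_apply, Pi.smul_apply, Pi.zero_apply, smul_eq_mul,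
      scaleOp, slash_heckeDiagMatrix_apply 2 (NeZero.ne l), show (2 : ℤ) - 1 = 1 from rfl,
      zpow_one] at this
    field_simp at this
    linear_combination this
  set K := ‖c‖ + ‖e‖
  have hK : 0 ≤ K := by positivity
  have hl1 : (1 : ℝ) ≤ l := by exact_mod_cast (show 1 ≤ l by omega)
  have hC' : ∀ τ : ℍ, A ≤ τ.im → ‖φ τ‖ ≤ max C 0 * Real.exp (-k * τ.im) := fun τ hτ ↦
    (hb τ hτ).trans (mul_le_mul_of_nonneg_right (le_max_left C 0) (Real.exp_pos _).le)
  have hgrow : ∀ (m : ℕ) (τ : ℍ), A ≤ τ.im →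
      ‖φ τ‖ ≤ max C 0 * K ^ m * Real.exp (-k * ((l : ℝ) ^ m * τ.im)) := by
    intro m
    induction m with
    | zero => intro τ hτ; simpa using hC' τ hτ
    | succ m ih =>
      intro τ hτ
      have h1 : A ≤ (sc τ).im := by rw [him]; exact hτ.trans (le_mul_of_one_le_left τ.im_pos.le hl1)
      have h2 : A ≤ (sc (sc τ)).im := by
        rw [him]; exact h1.trans (le_mul_of_one_le_left (sc τ).im_pos.le hl1)
      have e1 := ih _ h1
      have e2 := ih _ h2
      rw [him] at e1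
      rw [him, him] at e2
      have hpos : 0 ≤ max C 0 * K ^ m := by positivity
      have hle : Real.exp (-k * ((l : ℝ) ^ m * (l * (l * τ.im)))) ≤
          Real.exp (-k * ((l : ℝ) ^ m * (l * τ.im))) := by
        gcongr Real.exp ?_
        have : (l : ℝ) * τ.im ≤ l * (l * τ.im) :=
          le_mul_of_one_le_left (by positivity) hl1
        nlinarith [mul_le_mul_of_nonneg_left this (by positivity : (0 : ℝ) ≤ (l : ℝ) ^ m), hk]
      calc ‖φ τ‖ ≤ ‖c‖ * ‖φ (sc τ)‖ + ‖e‖ * ‖φ (sc (sc τ))‖ := by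
            rw [hrec τ, ← norm_mul, ← norm_mul]; exact norm_sub_le _ _
        _ ≤ ‖c‖ * (max C 0 * K ^ m * Real.exp (-k * ((l : ℝ) ^ m * (l * τ.im)))) +
            ‖e‖ * (max C 0 * K ^ m * Real.exp (-k * ((l : ℝ) ^ m * (l * τ.im)))) := by
            gcongr
            exact e2.trans (mul_le_mul_of_nonneg_left hle hpos)
        _ = max C 0 * K ^ (m + 1) * Real.exp (-k * ((l : ℝ) ^ (m + 1) * τ.im)) := by
            rw [pow_succ, pow_succ, mul_assoc ((l : ℝ) ^ m)]; ring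
  have hlarge : ∀ τ : ℍ, A ≤ τ.im → φ τ = 0 := by
    intro τ hτ
    have hlim : Tendsto (fun m : ℕ ↦ max C 0 * K ^ m * Real.exp (-k * ((l : ℝ) ^ m * τ.im))) atTop
        (𝓝 0) := by
      set x := k * τ.im with hx
      have hxpos : 0 < x := mul_pos hk τ.im_pos
      have h0 : Tendsto (fun m : ℕ ↦ (m : ℝ) ^ 1 / (l : ℝ) ^ m) atTop (𝓝 0) :=
        tendsto_pow_const_div_const_pow_of_one_lt 1 (by exact_mod_cast (show 1 < l by omega))
      have hbound : ∀ᶠ m : ℕ in atTop,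
          K ^ m * Real.exp (-k * ((l : ℝ) ^ m * τ.im)) ≤ (1 / 2 : ℝ) ^ m := by
        have hev := h0.eventually (gt_mem_nhds (show (0 : ℝ) < x / (|Real.log (2 * K + 1)| + 1) by
          positivity))
        filter_upwards [hev] with m hm
        rw [pow_one, div_lt_div_iff₀ (by positivity) (by positivity)] at hm
        have h1 : (m : ℝ) * Real.log (2 * K + 1) ≤ x * (l : ℝ) ^ m := by
          nlinarith [le_abs_self (Real.log (2 * K + 1)), (Nat.cast_nonneg m : (0 : ℝ) ≤ m)]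
        have h2 : (2 * K + 1) ^ m ≤ Real.exp (x * (l : ℝ) ^ m) := by
          rw [← Real.exp_log (show (0 : ℝ) < (2 * K + 1) by positivity), ← Real.exp_nat_mul]
          exact Real.exp_le_exp.mpr h1
        rw [show -k * ((l : ℝ) ^ m * τ.im) = -(x * (l : ℝ) ^ m) by rw [hx]; ring, Real.exp_neg,
          div_pow, one_pow, ← div_eq_mul_inv, div_le_div_iff₀ (Real.exp_pos _) (by positivity),
          one_mul, ← mul_pow]
        exact le_trans (pow_le_pow_left₀ (by positivity) (by linarith) m) h2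
      have hsq : Tendsto (fun m : ℕ ↦ max C 0 * (1 / 2 : ℝ) ^ m) atTop (𝓝 0) := by
        simpa using (tendsto_pow_atTop_nhds_zero_of_lt_one (by norm_num : (0 : ℝ) ≤ 1 / 2)
          (by norm_num)).const_mul (max C 0)
      refine squeeze_zero' (Eventually.of_forall fun m ↦ by positivity) ?_ hsq
      filter_upwards [hbound] with m hm
      rw [mul_assoc]
      exact mul_le_mul_of_nonneg_left hm (le_max_right C 0)
    exact norm_le_zero_iff.mp (ge_of_tendsto' hlim fun m ↦ hgrow m τ hτ)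
  funext τ
  have hdown : ∀ (m : ℕ) (τ : ℍ), A ≤ (l : ℝ) ^ m * τ.im → φ τ = 0 := by
    intro m
    induction m with
    | zero => intro τ hτ; exact hlarge τ (by simpa using hτ)
    | succ m ih =>
      intro τ hτ
      have h1 : A ≤ (l : ℝ) ^ m * (sc τ).im := by rw [him, ← mul_assoc, ← pow_succ]; exact hτ
      have h2 : A ≤ (l : ℝ) ^ m * (sc (sc τ)).im := by
        rw [him]
        exact h1.trans (mul_le_mul_of_nonneg_left (le_mul_of_one_le_left (sc τ).im_pos.le hl1)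
          (by positivity))
      rw [hrec τ, ih _ h1, ih _ h2, mul_zero, mul_zero, sub_zero]
  obtain ⟨m, hm⟩ := pow_unbounded_of_one_lt (A / τ.im)
    (show (1 : ℝ) < l by exact_mod_cast (show 1 < l by omega))
  exact hdown m τ ((div_lt_iff₀ τ.im_pos).mp hm).le

end Decay

end Fermat.Agent.TWLoc
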