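import Mathlib.LinearAlgebra.Matrix.SpecialLinearGroup
import Mathlib.NumberTheory.MulChar.Basic
import Mathlib.Data.Complex.Basic
import Mathlib.Tactic

/-!
# A twist of a `B`-invariant vector is not a difference of two principal series vectors

`G`, `P`, `F` are orbit maps of vectors under `SL(2, 𝔽_q)`: `G` is left invariant under the lower
triangular group, `P`, `F` transform by a character `χ` under the lower, resp. upper, triangular
group. If a twist `∑ ψ(u) G(T^u g)` equals `P g - α F g` and `χ ^ 2 ≠ 1` then `G` is invariant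
under `T`.
-/

set_option autoImplicit false

noncomputable section

open Matrix
open scoped MatrixGroups

namespace Fermat.Agent.TWLoc

variable {q : ℕ} [Fact q.Prime]

/-- Upper unipotent element. -/
def upU (x : ZMod q) : SL(2, ZMod q) := ⟨!![1, x; 0, 1], by simp [det_fin_two]⟩

/-- Lower unipotent element. -/
def lowU (x : ZMod q) : SL(2, ZMod q) := ⟨!![1, 0; x, 1], by simp [det_fin_two]⟩

/-- Diagonal element. -/
def diagU (a : ZMod q) (ha : a ≠ 0) : SL(2, ZMod q) :=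
  ⟨!![a, 0; 0, a⁻¹], by simp [det_fin_two, mul_inv_cancel₀ ha]⟩

/-- A lower triangular element. -/
def lowTri (a c : ZMod q) (ha : a ≠ 0) : SL(2, ZMod q) :=
  ⟨!![a, 0; c, a⁻¹], by simp [det_fin_two, mul_inv_cancel₀ ha]⟩

/-- The element sending the base point to the point at infinity. -/
def swapU : SL(2, ZMod q) := ⟨!![0, 1; -1, 1], by simp [det_fin_two]⟩

lemma coe_upU (x : ZMod q) : (upU x : Matrix (Fin 2) (Fin 2) (ZMod q)) = !![1, x; 0, 1] := rfl

lemma coe_lowU (x : ZMod q) : (lowU x : Matrix (Fin 2) (Fin 2) (ZMod q)) = !![1, 0; x, 1] := rfl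

lemma coe_diagU (a : ZMod q) (ha : a ≠ 0) :
    (diagU a ha : Matrix (Fin 2) (Fin 2) (ZMod q)) = !![a, 0; 0, a⁻¹] := rfl

lemma coe_lowTri (a c : ZMod q) (ha : a ≠ 0) :
    (lowTri a c ha : Matrix (Fin 2) (Fin 2) (ZMod q)) = !![a, 0; c, a⁻¹] := rfl

lemma coe_swapU : ((swapU : SL(2, ZMod q)) : Matrix (Fin 2) (Fin 2) (ZMod q)) = !![0, 1; -1, 1] :=
  rfl

lemma upU_mul_upU (x y : ZMod q) : upU x * upU y = upU (x + y) := by
  apply Subtype.ext
  simp [coe_upU, add_comm]

lemma upU_zero : upU (0 : ZMod q) = 1 := by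
  apply Subtype.ext
  simp [coe_upU, one_fin_two]

lemma upU_mul_lowU_eq {u u' : ZMod q} (hu : u ≠ 0) (hu' : u' ≠ 0) :
    upU u * lowU (1 / u' - 1 / u) =
      lowTri (u / u') (1 / u' - 1 / u) (div_ne_zero hu hu') * upU u' := by
  apply Subtype.ext
  simp only [Matrix.SpecialLinearGroup.coe_mul, coe_upU, coe_lowU, coe_lowTri]
  ext i j
  fin_cases i <;> fin_cases j <;> simp <;> field_simp <;> ring

lemma upU_mul_lowU_neg_one : upU (1 : ZMod q) * lowU (-1) = swapU := by
  apply Subtype.ext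
  simp [coe_upU, coe_lowU, coe_swapU]

lemma swapU_mul_upU : swapU * upU (1 : ZMod q) = lowTri 1 (-1) one_ne_zero * swapU := by
  apply Subtype.ext
  simp [coe_upU, coe_swapU, coe_lowTri]

lemma upU_mul_lowU_mul_diagU {v a : ZMod q} (hv : v ≠ 0) (ha : a ≠ 0) (e : ZMod q) :
    upU v * lowU e * diagU a ha =
      lowTri a⁻¹ ((a⁻¹ - a) / v) (inv_ne_zero ha) *
        (upU v * lowU ((e - (a⁻¹ - a) / (v * a)) * a ^ 2)) := by
  apply Subtype.ext
  simp only [Matrix.SpecialLinearGroup.coe_mul, coe_upU, coe_lowU, coe_lowTri, coe_diagU, inv_inv]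
  ext i j
  fin_cases i <;> fin_cases j <;> simp <;> field_simp <;> ring

lemma lowU_mul_diagU {a : ZMod q} (ha : a ≠ 0) (e : ZMod q) :
    lowU e * diagU a ha = diagU a ha * lowU (e * a ^ 2) := by
  apply Subtype.ext
  simp only [Matrix.SpecialLinearGroup.coe_mul, coe_lowU, coe_diagU]
  ext i j
  fin_cases i <;> fin_cases j <;> simp
  field_simp

variable {V : Type*} [AddCommGroup V] [Module ℂ V]

/-- `∑_e Φ (T^v n(e) g)`. -/
def lowSum (Φ : SL(2, ZMod q) → V) (v : ZMod q) (g : SL(2, ZMod q)) : V :=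
  ∑ e : ZMod q, Φ (upU v * lowU e * g)

lemma sum_scale_shift {a : ZMod q} (ha : a ≠ 0) (c : ZMod q) (f : ZMod q → V) :
    ∑ e : ZMod q, f ((e - c) * a ^ 2) = ∑ e : ZMod q, f e :=
  ((Equiv.subRight c).trans (Equiv.mulRight₀ (a ^ 2) (pow_ne_zero 2 ha))).sum_comp f

section LowerInvariant

variable {Φ : SL(2, ZMod q) → V} {θ : ZMod q → ℂ}
  (hΦ : ∀ b g : SL(2, ZMod q), b 0 1 = 0 → Φ (b * g) = θ (b 1 1) • Φ g)
include hΦ

lemma lowSum_zero (h1 : θ 1 = 1) (g : SL(2, ZMod q)) : lowSum Φ 0 g = (q : ℂ) • Φ g := by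
  have : ∀ e : ZMod q, Φ (upU 0 * lowU e * g) = Φ g := fun e ↦ by
    rw [upU_zero, one_mul, hΦ _ _ (by simp [coe_lowU]), show lowU e 1 1 = 1 by simp [coe_lowU],
      h1, one_smul]
  simp only [lowSum, this, Finset.sum_const, Finset.card_univ, ZMod.card, Nat.cast_smul_eq_nsmul]

lemma lowSum_diag {v : ZMod q} (hv : v ≠ 0) {a : ZMod q} (ha : a ≠ 0) (g : SL(2, ZMod q)) :
    lowSum Φ v (diagU a ha * g) = θ a • lowSum Φ v g := by
  rw [lowSum, lowSum, Finset.smul_sum]
  rw [← sum_scale_shift ha ((a⁻¹ - a) / (v * a)) fun e ↦ θ a • Φ (upU v * lowU e * g)]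
  refine Finset.sum_congr rfl fun e _ ↦ ?_
  rw [← mul_assoc, upU_mul_lowU_mul_diagU hv ha, mul_assoc, hΦ _ _ (by simp [coe_lowTri])]
  simp [coe_lowTri]

lemma lowSum_diag_zero {a : ZMod q} (ha : a ≠ 0) (h1 : θ 1 = 1) (g : SL(2, ZMod q)) :
    lowSum Φ 0 (diagU a ha * g) = θ a⁻¹ • lowSum Φ 0 g := by
  rw [lowSum_zero hΦ h1, lowSum_zero hΦ h1, hΦ _ _ (by simp [coe_diagU]), smul_comm]
  simp [coe_diagU]

end LowerInvariant

section UpperInvariant

variable {Φ : SL(2, ZMod q) → V} {θ : ZMod q → ℂ}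
  (hΦ : ∀ b g : SL(2, ZMod q), b 1 0 = 0 → Φ (b * g) = θ (b 1 1) • Φ g)
include hΦ

lemma upper_lowSum (h1 : θ 1 = 1) (v : ZMod q) (g : SL(2, ZMod q)) :
    lowSum Φ v g = ∑ e, Φ (lowU e * g) := by
  refine Finset.sum_congr rfl fun e _ ↦ ?_
  rw [mul_assoc, hΦ _ _ (by simp [coe_upU]), show upU v 1 1 = 1 by simp [coe_upU], h1, one_smul]

lemma upper_lowSum_diag (h1 : θ 1 = 1) (v : ZMod q) {a : ZMod q} (ha : a ≠ 0)
    (g : SL(2, ZMod q)) : lowSum Φ v (diagU a ha * g) = θ a⁻¹ • lowSum Φ v g := by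
  rw [upper_lowSum hΦ h1, upper_lowSum hΦ h1, Finset.smul_sum,
    ← sum_scale_shift ha 0 fun e ↦ θ a⁻¹ • Φ (lowU e * g)]
  refine Finset.sum_congr rfl fun e _ ↦ ?_
  rw [← mul_assoc, lowU_mul_diagU, mul_assoc, hΦ _ _ (by simp [coe_diagU]), sub_zero]
  simp [coe_diagU]

end UpperInvariant

/-- Orbit maps: invariant under lower triangular elements. -/
lemma lowSum_eq_lowSum_one {G : SL(2, ZMod q) → V}
    (hG : ∀ b g : SL(2, ZMod q), b 0 1 = 0 → G (b * g) = G g) {v : ZMod q} (hv : v ≠ 0)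
    (g : SL(2, ZMod q)) : lowSum G v g = lowSum G 1 g := by
  have hlow : ∀ e f, lowU e * lowU f = lowU (e + f : ZMod q) := fun e f ↦ by
    apply Subtype.ext
    simp [coe_lowU]
  rw [lowSum, lowSum, ← Equiv.sum_comp (Equiv.addRight (1 / (1 : ZMod q) - 1 / v))]
  refine Finset.sum_congr rfl fun e _ ↦ ?_
  dsimp only [Equiv.coe_addRight]
  rw [add_comm e, ← hlow, ← mul_assoc,
    upU_mul_lowU_eq hv one_ne_zero, mul_assoc, mul_assoc, hG _ _ (by simp [coe_lowTri]),
    ← mul_assoc]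

lemma lowSum_one_eq {G : SL(2, ZMod q) → V}
    (hG : ∀ b g : SL(2, ZMod q), b 0 1 = 0 → G (b * g) = G g) (g : SL(2, ZMod q)) :
    lowSum G 1 g + G g = ∑ u : ZMod q, G (upU u * g) + G (swapU * g) := by
  classical
  rw [lowSum, ← Finset.add_sum_erase _ _ (Finset.mem_univ (-1 : ZMod q)), upU_mul_lowU_neg_one,
    ← Finset.add_sum_erase _ (fun u ↦ G (upU u * g)) (Finset.mem_univ (0 : ZMod q)), upU_zero,
    one_mul]
  have key : ∑ e ∈ Finset.univ.erase (-1 : ZMod q), G (upU 1 * lowU e * g) =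
      ∑ u ∈ Finset.univ.erase (0 : ZMod q), G (upU u * g) := by
    refine Finset.sum_bij' (fun e _ ↦ 1 / (e + 1)) (fun u _ ↦ 1 / u - 1) ?_ ?_ ?_ ?_ ?_
    · intro e he
      simp only [Finset.mem_erase, Finset.mem_univ, and_true] at he ⊢
      exact div_ne_zero one_ne_zero fun h ↦ he (eq_neg_of_add_eq_zero_left h)
    · intro u hu
      simp only [Finset.mem_erase, Finset.mem_univ, and_true] at hu ⊢
      intro h
      rw [sub_eq_neg_self] at h
      exact div_ne_zero one_ne_zero hu h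
    · intro e he
      simp only [Finset.mem_erase, Finset.mem_univ, and_true] at he
      rw [one_div_one_div, add_sub_cancel_right]
    · intro u _
      rw [sub_add_cancel, one_div_one_div]
    · intro e he
      simp only [Finset.mem_erase, Finset.mem_univ, and_true] at he
      have h1 : e + 1 ≠ 0 := fun h ↦ he (eq_neg_of_add_eq_zero_left h)
      have h2 := upU_mul_lowU_eq (q := q) one_ne_zero (div_ne_zero one_ne_zero h1)
      simp only [one_div_one_div, div_one, add_sub_cancel_right] at h2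
      rw [h2, mul_assoc, hG _ _ (by simp [coe_lowTri])]
  rw [key]
  abel

/-- The main identity: no twist of a `B`-invariant orbit map is `P - α F`. -/
theorem invariant_upU_of_twist_eq {G P F : SL(2, ZMod q) → V} {χ ψ : MulChar (ZMod q) ℂ}
    (hG : ∀ b g : SL(2, ZMod q), b 0 1 = 0 → G (b * g) = G g)
    (hP : ∀ b g : SL(2, ZMod q), b 0 1 = 0 → P (b * g) = χ (b 1 1) • P g)
    (hF : ∀ b g : SL(2, ZMod q), b 1 0 = 0 → F (b * g) = χ (b 1 1) • F g)
    (hψ : ψ ≠ 1) {α : ℂ} (hχ : ∃ a : ZMod q, a ≠ 0 ∧ χ a ^ 2 ≠ 1)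
    (heq : ∀ g, ∑ u : ZMod q, ψ u • G (upU u * g) = P g - α • F g) (g : SL(2, ZMod q)) :
    G (upU 1 * g) = G g := by
  classical
  have hG' : ∀ b g : SL(2, ZMod q), b 0 1 = 0 →
      G (b * g) = (fun _ ↦ (1 : ℂ)) (b 1 1) • G g := fun b g hb ↦ by simp [hG b g hb]
  obtain ⟨a, ha, hχa⟩ := hχ
  set D : SL(2, ZMod q) → V := fun g ↦ (q : ℂ) • G g - lowSum G 1 g with hD
  -- the left hand side after averaging over lower unipotents
  have hL : ∀ g, ψ (-1) • D g = lowSum P 1 g - α • lowSum F 1 g := by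
    intro g
    have h := congrArg (fun f : SL(2, ZMod q) → V ↦ lowSum f 1 g) (funext heq)
    simp only [lowSum, Finset.sum_sub_distrib, ← Finset.smul_sum] at h
    rw [Finset.sum_comm] at h
    simp only [← Finset.smul_sum, ← mul_assoc, upU_mul_upU] at h
    simp only [lowSum]
    rw [← h, hD]
    have hterm : ∀ u : ZMod q, ∑ e : ZMod q, G (upU (u + 1) * lowU e * g) =
        lowSum G 1 g + if u = -1 then (q : ℂ) • G g - lowSum G 1 g else 0 := fun u ↦ by
      by_cases hu : u = -1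
      · subst hu
        rw [if_pos rfl, neg_add_cancel, add_sub_cancel]
        exact lowSum_zero (θ := fun _ ↦ (1 : ℂ)) hG' rfl g
      · rw [if_neg hu, add_zero]
        exact lowSum_eq_lowSum_one hG (fun h ↦ hu (eq_neg_of_add_eq_zero_left h)) g
    simp only [hterm, smul_add, Finset.sum_add_distrib, ← Finset.sum_smul,
      MulChar.sum_eq_zero_of_ne_one hψ, zero_smul, zero_add, smul_ite, smul_zero,
      Finset.sum_ite_eq', Finset.mem_univ, if_true]
  have hDt : ∀ b : ZMod q, (hb : b ≠ 0) → ∀ g, D (diagU b hb * g) = D g := fun b hb g ↦ by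
    simp only [hD, lowSum_diag (θ := fun _ ↦ (1 : ℂ)) hG' one_ne_zero hb, one_smul,
      hG _ _ (show diagU b hb 0 1 = 0 by simp [coe_diagU])]
  have hD0 : ∀ g, D g = 0 := by
    intro g
    set X := lowSum P 1 g
    set Y := α • lowSum F 1 g
    have e0 : ψ (-1) • D g = X - Y := hL g
    have e : ∀ b : ZMod q, b ≠ 0 → χ b • X - χ b⁻¹ • Y = X - Y := fun b hb ↦ by
      have h1 := hL (diagU b hb * g)
      rw [hDt b hb g, lowSum_diag hP one_ne_zero hb, upper_lowSum_diag hF (map_one χ) 1 hb,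
        smul_comm α] at h1
      exact h1.symm.trans e0
    have e1 := e a ha
    have e2 := e (a ^ 2) (pow_ne_zero 2 ha)
    rw [← inv_pow, map_pow, map_pow] at e2
    have hinv : χ a * χ a⁻¹ = 1 := by rw [← map_mul, mul_inv_cancel₀ ha, map_one]
    set x := χ a with hx
    have hx0 : x ≠ 0 := left_ne_zero_of_mul_eq_one hinv
    have hx' : χ a⁻¹ = x⁻¹ := eq_inv_of_mul_eq_one_right hinv
    rw [hx'] at e1 e2
    have hx1 : x ≠ 1 := fun h ↦ hχa (by rw [h, one_pow])
    have f1 : (x - 1) • (x • X + Y) = 0 := by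
      have h : x • ((x - 1) • X - (x⁻¹ - 1) • Y) = 0 := by
        rw [show (x - 1) • X - (x⁻¹ - 1) • Y = (x • X - x⁻¹ • Y) - (X - Y) by module, e1,
          sub_self, smul_zero]
      rw [← h, smul_sub, smul_smul, smul_smul, smul_add, smul_smul]
      match_scalars <;> field_simp <;> ring
    have f2 : (x ^ 2 - 1) • (x ^ 2 • X + Y) = 0 := by
      have h : x ^ 2 • ((x ^ 2 - 1) • X - (x⁻¹ ^ 2 - 1) • Y) = 0 := by
        rw [show (x ^ 2 - 1) • X - (x⁻¹ ^ 2 - 1) • Y = (x ^ 2 • X - x⁻¹ ^ 2 • Y) - (X - Y) by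
          module, e2, sub_self, smul_zero]
      rw [← h, smul_sub, smul_smul, smul_smul, smul_add, smul_smul]
      match_scalars <;> field_simp <;> ring
    rw [smul_eq_zero, sub_eq_zero, or_iff_right hx1] at f1
    rw [smul_eq_zero, sub_eq_zero, or_iff_right hχa] at f2
    have hX : X = 0 := by
      have : (x ^ 2 - x) • X = 0 := by
        rw [show (x ^ 2 - x) • X = (x ^ 2 • X + Y) - (x • X + Y) by module, f1, f2, sub_zero]
      rw [smul_eq_zero, sub_eq_zero] at this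
      refine this.resolve_left fun h ↦ hx1 ?_
      have : x * x = x * 1 := by rw [mul_one, ← sq, h]
      exact mul_left_cancel₀ hx0 this
    rw [hX, smul_zero, zero_add] at f1
    rw [hX, f1, sub_zero, smul_eq_zero] at e0
    refine e0.resolve_left ?_
    exact (IsUnit.map ψ (isUnit_one.neg)).ne_zero
  have hS : ∀ g, ((q : ℂ) + 1) • G g = ∑ u : ZMod q, G (upU u * g) + G (swapU * g) := fun g ↦ by
    rw [← lowSum_one_eq hG, ← sub_eq_zero.mp (hD0 g), add_smul, one_smul]
  have hq : ((q : ℂ) + 1) ≠ 0 := by exact_mod_cast Nat.succ_ne_zero q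
  refine smul_right_injective V hq ?_
  simp only [hS]
  congr 1
  · rw [← Equiv.sum_comp (Equiv.addRight (1 : ZMod q)) (fun u ↦ G (upU u * g))]
    exact Finset.sum_congr rfl fun u _ ↦ by rw [← mul_assoc, upU_mul_upU]; rfl
  · rw [← mul_assoc, swapU_mul_upU, mul_assoc, hG _ _ (by simp [coe_lowTri])]

end Fermat.Agent.TWLoc
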