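import Fermat.Agent.TWLoc.Deplete
import Fermat.Agent.Newforms.AtkinLehner

/-!
# The averaged twist kills eigen systems of level at most exactly divisible by `q`

If an eigen form `h` of level `N q²` with `U_q h = 0` has, outside a finite set of primes, the
eigen system of a form of level dividing `N q`, then `mtw ψ (h|diag(1, q))` vanishes.
-/

set_option autoImplicit false

noncomputable section

open UpperHalfPlane ModularFormClass ModularForm CongruenceSubgroup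
open scoped MatrixGroups ModularForm Manifold

namespace Fermat.Agent.TWLoc

open Newforms (S2)

variable {q : ℕ} [Fact q.Prime]

lemma opD_eq (l : ℕ) (c e : ℂ) (φ : ℍ → ℂ) :
    opD l c e φ = φ + (-(c * (l : ℂ)⁻¹)) • scaleOp l φ +
      (e * ((l : ℂ)⁻¹ * (l : ℂ)⁻¹)) • scaleOp l (scaleOp l φ) := by
  ext τ
  simp [opD, sub_eq_add_neg]

/-- Exponential decay towards `i∞`. -/
def HasDecay (φ : ℍ → ℂ) : Prop :=
  ∃ C A k : ℝ, 0 < k ∧ ∀ τ : ℍ, A ≤ τ.im → ‖φ τ‖ ≤ C * Real.exp (-k * τ.im)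

lemma hasDecay_zero : HasDecay (0 : ℍ → ℂ) := ⟨0, 0, 1, one_pos, fun τ _ ↦ by simp⟩

lemma HasDecay.exists_nonneg {φ : ℍ → ℂ} (h : HasDecay φ) : ∃ C A k : ℝ, 0 ≤ C ∧ 0 < k ∧
    ∀ τ : ℍ, A ≤ τ.im → ‖φ τ‖ ≤ C * Real.exp (-k * τ.im) := by
  obtain ⟨C, A, k, hk, h⟩ := h
  exact ⟨max C 0, A, k, le_max_right C 0, hk, fun τ hτ ↦
    (h τ hτ).trans (mul_le_mul_of_nonneg_right (le_max_left C 0) (Real.exp_pos _).le)⟩

lemma HasDecay.add {φ φ' : ℍ → ℂ} (h : HasDecay φ) (h' : HasDecay φ') : HasDecay (φ + φ') := by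
  obtain ⟨C, A, k, hC, hk, h⟩ := h.exists_nonneg
  obtain ⟨C', A', k', hC', hk', h'⟩ := h'.exists_nonneg
  refine ⟨C + C', max A A', min k k', lt_min hk hk', fun τ hτ ↦ ?_⟩
  rw [add_mul]
  refine (norm_add_le _ _).trans (add_le_add ((h τ ((le_max_left A A').trans hτ)).trans ?_)
    ((h' τ ((le_max_right A A').trans hτ)).trans ?_))
  · refine mul_le_mul_of_nonneg_left (Real.exp_le_exp.mpr ?_) hC
    nlinarith [min_le_left k k', τ.im_pos]
  · refine mul_le_mul_of_nonneg_left (Real.exp_le_exp.mpr ?_) hC'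
    nlinarith [min_le_right k k', τ.im_pos]

lemma HasDecay.smul {φ : ℍ → ℂ} (c : ℂ) (h : HasDecay φ) : HasDecay (c • φ) := by
  obtain ⟨C, A, k, hk, h⟩ := h
  refine ⟨‖c‖ * C, A, k, hk, fun τ hτ ↦ ?_⟩
  rw [Pi.smul_apply, norm_smul, mul_assoc]
  exact mul_le_mul_of_nonneg_left (h τ hτ) (norm_nonneg _)

lemma HasDecay.sum {α : Type*} (s : Finset α) {φ : α → ℍ → ℂ} (h : ∀ a ∈ s, HasDecay (φ a)) :
    HasDecay (∑ a ∈ s, φ a) :=
  Finset.sum_induction _ _ (fun _ _ ↦ HasDecay.add) hasDecay_zero h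

lemma HasDecay.scaleOp {φ : ℍ → ℂ} {l : ℕ} [NeZero l] (h : HasDecay φ) :
    HasDecay (scaleOp l φ) := by
  obtain ⟨C, A, k, hC, hk, h⟩ := h.exists_nonneg
  have him : ∀ τ : ℍ, (heckeDiagMatrix l • τ).im = l * τ.im := fun τ ↦ by
    show ((heckeDiagMatrix l • τ : ℍ) : ℂ).im = _
    rw [coe_heckeDiagMatrix_smul (NeZero.ne l)]
    simp
  refine ⟨l * C, A, k, hk, fun τ hτ ↦ ?_⟩
  have hle : τ.im ≤ l * τ.im :=
    le_mul_of_one_le_left τ.im_pos.le (by exact_mod_cast NeZero.one_le)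
  have := h (heckeDiagMatrix l • τ) (by rw [him]; exact hτ.trans hle)
  rw [him] at this
  rw [TWLoc.scaleOp, slash_heckeDiagMatrix_apply 2 (NeZero.ne l), show (2 : ℤ) - 1 = 1 from rfl,
    zpow_one, norm_mul, Complex.norm_natCast, mul_assoc]
  refine mul_le_mul_of_nonneg_left (this.trans (mul_le_mul_of_nonneg_left ?_ hC)) (Nat.cast_nonneg l)
  exact Real.exp_le_exp.mpr (by nlinarith)

lemma HasDecay.opD {φ : ℍ → ℂ} {l : ℕ} [NeZero l] (h : HasDecay φ) (c e : ℂ) :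
    HasDecay (opD l c e φ) := by
  have h1 := h.scaleOp (l := l)
  rw [opD_eq]
  exact (h.add (h1.smul _)).add (h1.scaleOp.smul _)

lemma HasDecay.opDAll {φ : ℍ → ℂ} (h : HasDecay φ) (c e : ℕ → ℂ) :
    ∀ {T : List ℕ}, (∀ x ∈ T, x ≠ 0) → HasDecay (opDAll c e T φ)
  | [], _ => h
  | x :: T, hT => by
    haveI : NeZero x := ⟨hT x List.mem_cons_self⟩
    exact (HasDecay.opDAll h c e fun y hy ↦ hT y (List.mem_cons_of_mem x hy)).opD _ _

lemma eq_zero_of_opDAll_eq_zero {φ : ℍ → ℂ} (c e : ℕ → ℂ) : ∀ {T : List ℕ},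
    (∀ x ∈ T, x.Prime) → HasDecay φ → opDAll c e T φ = 0 → φ = 0
  | [], _, _, h => h
  | x :: T, hT, hd, h => by
    have hT' := fun y hy ↦ hT y (List.mem_cons_of_mem x hy)
    refine eq_zero_of_opDAll_eq_zero c e hT' hd
      (eq_zero_of_opD_eq_zero (hT x List.mem_cons_self).two_le (c x) (e x) ?_ h)
    exact hd.opDAll c e fun y hy ↦ (hT' y hy).ne_zero

section Conj

variable {l : ℕ} [NeZero l]

lemma scaleOp_slash_heckeMatrix (φ : ℍ → ℂ) :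
    scaleOp l φ ∣[(2 : ℤ)] heckeMatrix q 0 = scaleOp l (φ ∣[(2 : ℤ)] heckeMatrix q 0) := by
  have hcomm : heckeDiagMatrix l * heckeMatrix q 0 = heckeMatrix q 0 * heckeDiagMatrix l := by
    apply Units.ext
    rw [Units.val_mul, Units.val_mul, val_heckeDiagMatrix (NeZero.ne l),
      val_heckeMatrix (Fact.out : q.Prime).ne_zero]
    ext i j
    fin_cases i <;> fin_cases j <;> simp [Matrix.mul_apply, Fin.sum_univ_two]
  rw [scaleOp, scaleOp, ← SlashAction.slash_mul, hcomm, SlashAction.slash_mul]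

omit [NeZero l] [Fact q.Prime] in
lemma smul_slash_heckeMatrix (c : ℂ) (φ : ℍ → ℂ) :
    (c • φ) ∣[(2 : ℤ)] heckeMatrix q 0 = c • (φ ∣[(2 : ℤ)] heckeMatrix q 0) := by
  rw [ModularForm.smul_slash, σ_heckeMatrix]
  rfl

lemma opD_slash_heckeMatrix (c e : ℂ) (φ : ℍ → ℂ) :
    opD l c e φ ∣[(2 : ℤ)] heckeMatrix q 0 = opD l c e (φ ∣[(2 : ℤ)] heckeMatrix q 0) := by
  simp only [opD_eq, SlashAction.add_slash, smul_slash_heckeMatrix,
    scaleOp_slash_heckeMatrix]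

lemma opDAll_slash_heckeMatrix (c e : ℕ → ℂ) (φ : ℍ → ℂ) : ∀ {T : List ℕ}, (∀ x ∈ T, x ≠ 0) →
    opDAll c e T φ ∣[(2 : ℤ)] heckeMatrix q 0 = opDAll c e T (φ ∣[(2 : ℤ)] heckeMatrix q 0)
  | [], _ => rfl
  | x :: T, hT => by
    haveI : NeZero x := ⟨hT x List.mem_cons_self⟩
    simp only [opDAll, opD_slash_heckeMatrix,
      opDAll_slash_heckeMatrix c e φ fun y hy ↦ hT y (List.mem_cons_of_mem x hy)]

omit [NeZero l] in
lemma exists_conj_heckeMatrix {L N : ℕ} (hL : L ∣ N * q ^ 2) {γ : SL(2, ℤ)}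
    (hγ : γ ∈ Gamma0 N) (hb : (q : ℤ) ∣ γ 0 1) (hc : (q : ℤ) ∣ γ 1 0 ∨ L ∣ N * q)
    (hNq : N.Coprime q) :
    ∃ γ' ∈ Gamma0 L, heckeMatrix q 0 * Matrix.SpecialLinearGroup.mapGL ℝ γ =
      Matrix.SpecialLinearGroup.mapGL ℝ γ' * heckeMatrix q 0 := by
  obtain ⟨b, hb⟩ := hb
  have hN : (N : ℤ) ∣ γ 1 0 := (ZMod.intCast_zmod_eq_zero_iff_dvd _ _).mp (Gamma0_mem.mp hγ)
  have hdvd : (L : ℤ) ∣ (q : ℤ) * γ 1 0 := by
    rcases hc with hc | hc
    · refine (Int.natCast_dvd_natCast.mpr hL).trans ?_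
      push_cast
      rw [sq, ← mul_assoc, mul_comm ((N : ℤ) * q)]
      refine mul_dvd_mul_left _ (IsCoprime.mul_dvd ?_ hN hc)
      exact Nat.isCoprime_iff_coprime.mpr hNq
    · refine (Int.natCast_dvd_natCast.mpr hc).trans ?_
      push_cast
      rw [mul_comm (N : ℤ)]
      exact mul_dvd_mul_left _ hN
  have hdet := γ.det_coe
  rw [Matrix.det_fin_two] at hdet
  obtain ⟨γ', h00, h01, h10, h11⟩ : ∃ γ' : SL(2, ℤ),
      γ' 0 0 = γ 0 0 ∧ γ' 0 1 = b ∧ γ' 1 0 = (q : ℤ) * γ 1 0 ∧ γ' 1 1 = γ 1 1 :=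
    ⟨⟨!![γ 0 0, b; (q : ℤ) * γ 1 0, γ 1 1], by
      rw [Matrix.det_fin_two_of]
      linear_combination hdet + γ 1 0 * hb⟩, rfl, rfl, rfl, rfl⟩
  refine ⟨γ', Gamma0_mem.mpr ?_, ?_⟩
  · rw [h10]
    exact (ZMod.intCast_zmod_eq_zero_iff_dvd _ _).mpr hdvd
  · have hq := (Fact.out : q.Prime).ne_zero
    apply Units.ext
    rw [Units.val_mul, Units.val_mul, val_heckeMatrix hq]
    have hb' : ((γ 0 1 : ℤ) : ℝ) = (q : ℝ) * b := by exact_mod_cast hb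
    ext i j
    fin_cases i <;> fin_cases j <;>
      simp [Matrix.mul_apply, Fin.sum_univ_two, hb', h00, h01, h10, h11] <;> ring

omit [NeZero l] [Fact q.Prime] in
lemma slash_heckeMatrix_slash {L : ℕ} (f : S2 L) {γ γ' : SL(2, ℤ)} (hγ' : γ' ∈ Gamma0 L)
    (h : heckeMatrix q 0 * Matrix.SpecialLinearGroup.mapGL ℝ γ =
      Matrix.SpecialLinearGroup.mapGL ℝ γ' * heckeMatrix q 0) :
    (⇑f ∣[(2 : ℤ)] heckeMatrix q 0) ∣[(2 : ℤ)] γ = ⇑f ∣[(2 : ℤ)] heckeMatrix q 0 := by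
  show (⇑f ∣[(2 : ℤ)] heckeMatrix q 0) ∣[(2 : ℤ)] Matrix.SpecialLinearGroup.mapGL ℝ γ = _
  rw [← SlashAction.slash_mul, h, SlashAction.slash_mul]
  show (⇑f ∣[(2 : ℤ)] γ') ∣[(2 : ℤ)] heckeMatrix q 0 = _
  rw [Newforms.slash_eq_self f hγ']

omit [NeZero l] in
lemma gammaInv_slash_heckeMatrix {L N : ℕ} (hL : L ∣ N * q ^ 2) (hNq : N.Coprime q) (f : S2 L) :
    GammaInv q N (⇑f ∣[(2 : ℤ)] heckeMatrix q 0) := by
  intro γ hγ h1
  have e : ∀ i j, ((γ i j : ℤ) : ZMod q) = (1 : SL(2, ZMod q)) i j := fun i j ↦ by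
    rw [← redQ_apply, h1]
  obtain ⟨γ', hγ', he⟩ := exists_conj_heckeMatrix hL hγ
    ((ZMod.intCast_zmod_eq_zero_iff_dvd _ _).mp (by simpa using e 0 1))
    (Or.inl ((ZMod.intCast_zmod_eq_zero_iff_dvd _ _).mp (by simpa using e 1 0))) hNq
  exact slash_heckeMatrix_slash f hγ' he

omit [NeZero l] in
lemma lowInv_slash_heckeMatrix {L N : ℕ} (hL : L ∣ N * q) (hNq : N.Coprime q) (f : S2 L) :
    LowInv q N (⇑f ∣[(2 : ℤ)] heckeMatrix q 0) := by
  intro γ hγ hb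
  obtain ⟨γ', hγ', he⟩ := exists_conj_heckeMatrix
    (hL.trans (mul_dvd_mul_left N (dvd_pow_self q two_ne_zero))) hγ
    ((ZMod.intCast_zmod_eq_zero_iff_dvd _ _).mp hb) (Or.inr hL) hNq
  exact slash_heckeMatrix_slash f hγ' he

end Conj

section Twist

variable {N : ℕ} {φ : ℍ → ℂ} (ψ : MulChar (ZMod q) ℂ)

lemma GammaInv.opD {l : ℕ} [NeZero l] (hl : (l : ZMod q) ≠ 0) (h : GammaInv q N φ) (c e : ℂ) :
    GammaInv q (N * (l * l)) (opD l c e φ) := by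
  have h1 := h.scaleOp hl
  have h2 := h1.scaleOp hl
  rw [opD_eq]
  refine ((h.mono (dvd_mul_right N (l * l))).add ((h1.mono ?_).smul _)).add ((h2.mono ?_).smul _)
  · exact mul_dvd_mul_left N (dvd_mul_right l l)
  · exact (mul_assoc N l l).dvd

lemma mtw_opD {l : ℕ} [NeZero l] (hl : (l : ZMod q) ≠ 0) (hN : (N : ZMod q) ≠ 0)
    (h : GammaInv q N φ) (c e : ℂ) :
    mtw ψ (N * (l * l)) (opD l c e φ) =
      opD l (c * ψ (l : ZMod q)⁻¹) (e * (ψ (l : ZMod q)⁻¹ * ψ (l : ZMod q)⁻¹)) (mtw ψ N φ) := by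
  have hl1 : ((N * l : ℕ) : ZMod q) ≠ 0 := by push_cast; exact mul_ne_zero hN hl
  have hl2 : ((N * (l * l) : ℕ) : ZMod q) ≠ 0 := by
    push_cast; exact mul_ne_zero hN (mul_ne_zero hl hl)
  have h1 := h.scaleOp hl
  have h2 := h1.scaleOp hl
  have e1 : mtw ψ (N * (l * l)) (scaleOp l φ) = mtw ψ (N * l) (scaleOp l φ) :=
    mtw_mono ψ hl1 hl2 (mul_dvd_mul_left N (dvd_mul_right l l)) h1
  have e2 : mtw ψ (N * (l * l)) (scaleOp l (scaleOp l φ)) =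
      mtw ψ (N * l * l) (scaleOp l (scaleOp l φ)) := by rw [mul_assoc N l l]
  rw [opD_eq, opD_eq, mtw_add, mtw_add, mtw_smul, mtw_smul,
    mtw_mono ψ hN hl2 (dvd_mul_right N (l * l)) h, e1, e2, mtw_scaleOp hl ψ hl1 h1,
    mtw_scaleOp hl ψ hN h, scaleOp_smul, smul_smul, smul_smul, smul_smul]
  match_scalars <;> ring

lemma GammaInv.opDAll (hN : GammaInv q N φ) (c e : ℕ → ℂ) : ∀ {T : List ℕ},
    (∀ x ∈ T, (x : ZMod q) ≠ 0) → GammaInv q (levelAll T N) (opDAll c e T φ)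
  | [], _ => hN
  | x :: T, hT => by
    haveI : NeZero x := ⟨fun h0 ↦ hT x List.mem_cons_self (by rw [h0, Nat.cast_zero])⟩
    exact (GammaInv.opDAll hN c e fun y hy ↦ hT y (List.mem_cons_of_mem x hy)).opD
      (hT x List.mem_cons_self) _ _

omit [Fact q.Prime] in
lemma levelAll_cast_ne_zero [Fact q.Prime] (hN : (N : ZMod q) ≠ 0) : ∀ {T : List ℕ},
    (∀ x ∈ T, (x : ZMod q) ≠ 0) → ((levelAll T N : ℕ) : ZMod q) ≠ 0
  | [], _ => hN
  | x :: T, hT => by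
    simp only [levelAll, Nat.cast_mul]
    exact mul_ne_zero (levelAll_cast_ne_zero hN fun y hy ↦ hT y (List.mem_cons_of_mem x hy))
      (mul_ne_zero (hT x List.mem_cons_self) (hT x List.mem_cons_self))

lemma mtw_opDAll (hN : (N : ZMod q) ≠ 0) (h : GammaInv q N φ) (c e : ℕ → ℂ) : ∀ {T : List ℕ},
    (∀ x ∈ T, (x : ZMod q) ≠ 0) →
    mtw ψ (levelAll T N) (opDAll c e T φ) =
      opDAll (fun l ↦ c l * ψ (l : ZMod q)⁻¹)
        (fun l ↦ e l * (ψ (l : ZMod q)⁻¹ * ψ (l : ZMod q)⁻¹)) T (mtw ψ N φ)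
  | [], _ => rfl
  | x :: T, hT => by
    haveI : NeZero x := ⟨fun h0 ↦ hT x List.mem_cons_self (by rw [h0, Nat.cast_zero])⟩
    have hT' := fun y hy ↦ hT y (List.mem_cons_of_mem x hy)
    simp only [opDAll, levelAll]
    rw [mtw_opD ψ (hT x List.mem_cons_self) (levelAll_cast_ne_zero hN hT')
      (h.opDAll c e hT'), mtw_opDAll hN h c e hT']

/-- The averaged twist of a form decays at `i∞`. -/
lemma hasDecay_mtw {L : ℕ} [NeZero L] (f : S2 L) (hN : (N : ZMod q) ≠ 0) (hNq : N.Coprime q)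
    (hL : L ∣ N * q ^ 2) :
    HasDecay (mtw ψ N (⇑f ∣[(2 : ℤ)] heckeMatrix q 0)) := by
  have hinv := gammaInv_slash_heckeMatrix hL hNq f
  refine HasDecay.sum _ fun u _ ↦ HasDecay.smul _ (HasDecay.sum _ fun e _ ↦ ?_)
  refine exists_decay (((Newforms.isCuspidal_coe f).slash_heckeMatrix_zero q).slash_SL _)
    (Fact.out : q.Prime).ne_zero ?_
  have hT : ModularGroup.T ^ q ∈ Gamma0 N := by
    rw [Gamma0_mem, ← zpow_natCast, ModularGroup.coe_T_zpow]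
    simp
  have hr : redQ q (ModularGroup.T ^ q) = 1 := by
    ext i j
    rw [redQ_apply, ← zpow_natCast, ModularGroup.coe_T_zpow]
    fin_cases i <;> fin_cases j <;> simp
  set g := upU u * lowU e * (1 : SL(2, ZMod q))
  obtain ⟨h1, h2⟩ := liftQ_spec (q := q) hN g
  calc (orbit N (⇑f ∣[(2 : ℤ)] heckeMatrix q 0) g) ∣[(2 : ℤ)] (ModularGroup.T ^ q)
      = (⇑f ∣[(2 : ℤ)] heckeMatrix q 0) ∣[(2 : ℤ)] (liftQ N g * ModularGroup.T ^ q) :=
        (SlashAction.slash_mul _ _ _ _).symm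
    _ = orbit N (⇑f ∣[(2 : ℤ)] heckeMatrix q 0) (redQ q (liftQ N g * ModularGroup.T ^ q)) :=
        (orbit_eq hN hinv (mul_mem h1 hT)).symm
    _ = orbit N (⇑f ∣[(2 : ℤ)] heckeMatrix q 0) g := by rw [map_mul, hr, mul_one, h2]

/-- The averaged twist kills eigen forms whose system has level with `q`-exponent at most one. -/
theorem mtw_eq_zero_of_system (hψ : ψ ≠ 1) [NeZero N] (hNq : N.Coprime q) {M : ℕ} [NeZero M]
    (hM : M ∣ N * q) (h : S2 (N * q ^ 2)) (g : S2 M) (hg1 : qCoeff g 1 = 1)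
    (T : Finset ℕ) (hT : ∀ l ∈ T, l.Prime) (hTq : q ∉ T)
    (ch eh cg eg : ℕ → ℂ)
    (hh : ∀ l, l.Prime → l ≠ q → IsRec l (ch l) (eh l) (qCoeff h))
    (hg : ∀ l, l.Prime → l ≠ q → IsRec l (cg l) (eg l) (qCoeff g))
    (heq : ∀ l, l.Prime → l ≠ q → l ∉ T → ch l = cg l ∧ eh l = eg l) :
    mtw ψ N (⇑h ∣[(2 : ℤ)] heckeMatrix q 0) = 0 := by
  have hqp := (Fact.out : q.Prime)
  haveI : NeZero (N * q ^ 2) := ⟨mul_ne_zero (NeZero.ne N) (pow_ne_zero 2 hqp.ne_zero)⟩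
  have hNz : (N : ZMod q) ≠ 0 := by
    rw [Ne, ZMod.natCast_eq_zero_iff]
    exact fun hd ↦ hqp.ne_one (Nat.dvd_one.mp (hNq.gcd_eq_one ▸ Nat.dvd_gcd hd dvd_rfl))
  set S := T.toList with hS
  have hSp : ∀ x ∈ S, x.Prime := fun x hx ↦ hT x (Finset.mem_toList.mp hx)
  have hS0 : ∀ x ∈ S, x ≠ 0 := fun x hx ↦ (hSp x hx).ne_zero
  have hSq : ∀ x ∈ S, x ≠ q := fun x hx hxq ↦ hTq (hxq ▸ Finset.mem_toList.mp hx)
  have hSz : ∀ x ∈ S, (x : ZMod q) ≠ 0 := fun x hx ↦ by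
    rw [Ne, ZMod.natCast_eq_zero_iff]
    exact fun hd ↦ hSq x hx ((Nat.prime_dvd_prime_iff_eq hqp (hSp x hx)).mp hd).symm
  set P := levelAll S 1 with hP
  have hPz : (P : ZMod q) ≠ 0 := levelAll_cast_ne_zero (by simp) hSz
  haveI : NeZero P := ⟨levelAll_ne_zero one_ne_zero hS0⟩
  haveI : NeZero (levelAll S M) := ⟨levelAll_ne_zero (NeZero.ne M) hS0⟩
  haveI : NeZero (levelAll S (N * q ^ 2)) := ⟨levelAll_ne_zero (NeZero.ne _) hS0⟩
  obtain ⟨Eh, hEh, hEhn⟩ := exists_opDAll_form ch eh S hS0 h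
  obtain ⟨Eg, hEg, hEgn⟩ := exists_opDAll_form cg eg S hS0 g
  have hPq : (N * P).Coprime q := by
    refine Nat.Coprime.mul_left hNq ((hqp.coprime_iff_not_dvd.mpr fun hd ↦ hPz ?_).symm)
    rwa [ZMod.natCast_eq_zero_iff]
  have hlevh : levelAll S (N * q ^ 2) = N * P * q ^ 2 := by rw [levelAll_eq, ← hP]; ring
  have hlevg : levelAll S M ∣ N * P * q := by
    rw [levelAll_eq, ← hP, mul_right_comm N P q]
    exact mul_dvd_mul_right hM P
  haveI : NeZero (N * P * q ^ 2) := ⟨hlevh ▸ NeZero.ne _⟩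
  set a1 := qCoeff h 1
  -- the coefficients agree away from `T` and `q`
  have hagree : ∀ n, ¬ q ∣ n → (∀ x ∈ S, ¬ x ∣ n) → qCoeff h n = a1 * qCoeff g n := by
    intro n
    induction n using Nat.strong_induction_on with
    | _ n ih =>
      intro hqn hSn
      rcases Nat.lt_trichotomy n 1 with hn | hn | hn
      · obtain rfl : n = 0 := by omega
        exact absurd (dvd_zero q) hqn
      · subst hn; rw [hg1, mul_one]
      obtain ⟨p, hp, hpn⟩ := Nat.exists_prime_and_dvd (show n ≠ 1 by omega)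
      obtain ⟨m, rfl⟩ := hpn
      have hpq : p ≠ q := fun h0 ↦ hqn (h0 ▸ dvd_mul_right p m)
      have hpT : p ∉ T := fun hpT ↦
        hSn p (Finset.mem_toList.mpr hpT) (dvd_mul_right p m)
      obtain ⟨e1, e2⟩ := heq p hp hpq hpT
      have hm0 : 0 < m := Nat.pos_of_ne_zero fun h0 ↦ by subst h0; simp at hn
      have hlt : m < p * m := lt_mul_of_one_lt_left hm0 hp.one_lt
      have ihm := ih m hlt (fun hd ↦ hqn (hd.mul_left p)) fun x hx hd ↦ hSn x hx (hd.mul_left p)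
      rw [mul_comm p m, hh p hp hpq m, hg p hp hpq m, ihm, e1, e2]
      by_cases hd : p ∣ m
      · obtain ⟨m', rfl⟩ := hd
        have ihm' := ih m' (lt_of_le_of_lt (Nat.le_mul_of_pos_left m' hp.pos) hlt)
          (fun hd ↦ hqn ((hd.mul_left p).mul_left p)) fun x hx hd ↦
            hSn x hx ((hd.mul_left p).mul_left p)
        rw [mul_comm p m', seqB_mul hp.pos, seqB_mul hp.pos, ihm']
        ring
      · rw [seqB_of_not_dvd hd, seqB_of_not_dvd hd]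
        ring
  -- the difference is supported on multiples of `q`
  let E : S2 (N * P * q ^ 2) :=
    Newforms.raiseLin (hlevh.dvd) Eh -
      a1 • Newforms.raiseLin (hlevg.trans ⟨q, by ring⟩) Eg
  have hEn : ∀ n, ¬ q ∣ n → qCoeff E n = 0 := by
    intro n hn
    rw [Newforms.qCoeff_sub, Newforms.qCoeff_smul, Newforms.coe_raiseLin, Newforms.coe_raiseLin,
      hEhn, hEgn, seqDAll_eq (Finset.nodup_toList T) hSp (fun x hx ↦ hh x (hSp x hx) (hSq x hx)),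
      seqDAll_eq (Finset.nodup_toList T) hSp (fun x hx ↦ hg x (hSp x hx) (hSq x hx))]
    by_cases hc : ∀ x ∈ S, ¬ x ∣ n
    · rw [if_pos hc, if_pos hc, hagree n hn hc, sub_self]
    · rw [if_neg hc, if_neg hc, mul_zero, sub_zero]
  have hNPz : ((N * P : ℕ) : ZMod q) ≠ 0 := by push_cast; exact mul_ne_zero hNz hPz
  have h0 : mtw ψ (N * P) (⇑E ∣[(2 : ℤ)] heckeMatrix q 0) = 0 :=
    mtw_eq_zero_of_slash_T hψ hNPz (gammaInv_slash_heckeMatrix dvd_rfl hPq E)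
      (slash_heckeMatrix_slash_T hqp.ne_zero E hEn)
  have hg0 : mtw ψ (N * P) (⇑Eg ∣[(2 : ℤ)] heckeMatrix q 0) = 0 :=
    mtw_eq_zero_of_lowInv hψ hNPz (lowInv_slash_heckeMatrix hlevg hPq Eg)
  have hh0 : mtw ψ (N * P) (⇑Eh ∣[(2 : ℤ)] heckeMatrix q 0) = 0 := by
    have : ⇑Eh = ⇑E + a1 • ⇑Eg := by
      show ⇑Eh = (⇑Eh - a1 • ⇑Eg) + a1 • ⇑Eg
      rw [sub_add_cancel]
    rw [this, SlashAction.add_slash, smul_slash_heckeMatrix, mtw_add, mtw_smul, h0, hg0,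
      smul_zero, add_zero]
  rw [hEh, opDAll_slash_heckeMatrix ch eh h hS0,
    show N * P = levelAll S N from (levelAll_eq S N).symm,
    mtw_opDAll ψ hNz (gammaInv_slash_heckeMatrix dvd_rfl hNq h) ch eh hSz] at hh0
  exact eq_zero_of_opDAll_eq_zero _ _ hSp (hasDecay_mtw ψ h hNz hNq dvd_rfl) hh0

end Twist

end Fermat.Agent.TWLoc
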