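import Fermat.Agent.TWLoc.TwistVanish
import Fermat.Agent.TWLoc.TwistOld
import Fermat.Agent.TW.Mod.TwistHecke
import Fermat.Agent.HK.EichlerShimuraInput
import Fermat.Agent.Newforms.Eigen

/-!
# The twisted system has level exactly divisible by `q²`

A non-zero Hecke eigen class on `Γ₀(Nq)` with nebentypus `χ²` at `q` (`χ² ≠ 1`) and non-zero
`U_q`-eigenvalue, whose twist is parabolic, gives a newform whose level has `q`-exponent two and
whose eigenvalues are `χ(l)⁻¹` times those of the class.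
-/

set_option autoImplicit false

noncomputable section

open CongruenceSubgroup ModularCurve ModularFormClass
open scoped MatrixGroups ModularForm
open Fermat.Agent.TW.Mod
open Fermat.Agent.Newforms (S2)

namespace Fermat.Agent.TWLoc

variable {N q : ℕ} [hq : Fact q.Prime] [hqN : Fact (¬ q ∣ N)]

/-- `χ(l)⁻¹ lam(l)`. -/
def twistedLam (χ : (ZMod q)ˣ →* ℂˣ) (lam : ℕ → ℂ) (l : ℕ) : ℂ := extChar χ⁻¹ (l : ZMod q) * lam l

/-- `c` is an eigen class of all Hecke operators away from `q` with eigenvalues `lam`. -/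
def IsEigenClass (χ : (ZMod q)ˣ →* ℂˣ) (c : Der (epsOf (sqTwistChar N χ)) ℂ) (lam : ℕ → ℂ) :
    Prop :=
  ∀ (l : ℕ) [Fact l.Prime], l ≠ q → ∃ b : ℂ,
    derT (sqTwistChar N χ) ℂ l c = lam l • c + cobound (epsOf (sqTwistChar N χ)) ℂ b

variable {χ : (ZMod q)ˣ →* ℂˣ} {c : Der (epsOf (sqTwistChar N χ)) ℂ} {lam : ℕ → ℂ}

omit hqN in
/-- The twist of an eigen class is an eigen vector. -/
lemma heckeHom_twistHom (hc : IsEigenClass χ c lam) (l : ℕ) [hl : Fact l.Prime] (hlq : l ≠ q) :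
    HK.heckeHom (N * q * q) l ℂ ℂ (twistHom N χ ℂ c) = twistedLam χ lam l • twistHom N χ ℂ c := by
  obtain ⟨b, hb⟩ := hc l hlq
  have h := twistHom_derT hlq χ c
  rw [hb, map_add, map_smul, show twistHom N χ ℂ (cobound (epsOf (sqTwistChar N χ)) ℂ b) = 0 from
    (twistSystem N χ).op_cobound b, add_zero] at h
  rw [twistedLam, show (l : ZMod q) = ((primeUnit (q := q) hlq : (ZMod q)ˣ) : ZMod q) from rfl,
    extChar_coe, MonoidHom.inv_apply, ← smul_smul, ← h, smul_smul, Units.inv_mul, one_smul]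

/-- Period pairs intertwine the Hecke operators. -/
lemma periodHomPair_heckeFormsLin (M : ℕ) [NeZero M] (l : ℕ) [Fact l.Prime]
    (f g : CuspForm (Gamma0 M) 2) :
    periodHomPair M (HK.heckeFormsLin M l f, HK.heckeFormsLin M l g) =
      HK.heckeHom M l ℂ ℂ (periodHomPair M (f, g)) := by
  obtain ⟨pml, hp, he⟩ := periodHomPair_def M (MF.Prim.existsPeriodMapLinear M)
  simp only [he, LinearMap.coprod_apply, LinearMap.comp_apply, LinearMap.add_apply,
    LinearMap.sub_apply, LinearMap.id_apply, hp, map_add, map_sub, HK.periodMap_heckeFormsLin,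
    HK.heckeHom_charInvolution]

/-- The coefficient recursion of an eigen vector. -/
lemma isRec_of_eigen {M : ℕ} [NeZero M] (h : S2 M) {l : ℕ} (hl : l.Prime) {a : ℂ}
    (ha : Newforms.opAll M ⟨l, hl⟩ h = a • h) :
    IsRec l a (if l ∣ M then 0 else (l : ℂ)) (qCoeff h) := by
  intro n
  have h' := congrArg (fun x : S2 M ↦ qCoeff x n) ha
  simp only [Newforms.qCoeff_smul] at h'
  by_cases hlM : l ∣ M
  · rw [Newforms.opAll_of_dvd hl hlM, Newforms.qCoeff_heckeULin] at h'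
    simp [h', hlM]
  · rw [Newforms.opAll_of_not_dvd hl hlM, Newforms.qCoeff_heckeTLin] at h'
    rw [if_neg hlM, seqB]
    by_cases hd : l ∣ n
    · rw [if_pos hd] at h' ⊢
      linear_combination h'
    · rw [if_neg hd] at h' ⊢
      linear_combination h'

variable [NeZero N]

/-- The twist of an eigen class yields a newform whose level has `q`-exponent two. -/
theorem exists_newform_of_twist (hη : ∃ u, χ u ^ 2 ≠ 1) (hne : ∀ b : ℂ, c ≠ cobound _ ℂ b)
    (hc : IsEigenClass χ c lam) {α : ℂ} (hα : α ≠ 0)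
    (hU : ∃ a : ℂ, derT (sqTwistChar N χ) ℂ q c = α • c + cobound (epsOf (sqTwistChar N χ)) ℂ a)
    (hpar : twistHom N χ ℂ c ∈ Period.parabolicHoms ℂ (Gamma0 (N * q * q)) ℂ) :
    ∃ (M : ℕ) (g : S2 M), g.IsNewform ∧ M ∣ N * q ^ 2 ∧ M.factorization q = 2 ∧
      ∀ l : ℕ, l.Prime → ¬ l ∣ N → l ≠ q →
        qCoeff g l = extChar χ⁻¹ (l : ZMod q) * lam l := by
  classical
  have hqp := hq.out
  have hNq : N.Coprime q := (hqp.coprime_iff_not_dvd.2 Fact.out).symm
  haveI : NeZero (N * q * q) := ⟨mul_ne_zero (mul_ne_zero (NeZero.ne N) hqp.ne_zero) hqp.ne_zero⟩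
  haveI : NeZero (N * q ^ 2) := ⟨mul_ne_zero (NeZero.ne N) (pow_ne_zero 2 hqp.ne_zero)⟩
  obtain ⟨a, hUa⟩ := hU
  have hne0 : twistHom N χ ℂ c ≠ 0 := fun h0 ↦ by
    obtain ⟨b, hb⟩ := eq_cobound_of_avgPer hη hα a hUa fun k ↦ by rw [h0]; simp [avgPer]
    exact hne b hb
  obtain ⟨hinj, hrange⟩ := HK.eichlerShimura (N * q * q)
  rw [← hrange] at hpar
  obtain ⟨⟨h₁, h₂⟩, hh⟩ := hpar
  -- both forms are eigen forms
  have heig : ∀ (l : ℕ) (hl : l.Prime), l ≠ q →
      Newforms.opAll (N * q * q) ⟨l, hl⟩ h₁ = twistedLam χ lam l • h₁ ∧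
      Newforms.opAll (N * q * q) ⟨l, hl⟩ h₂ = twistedLam χ lam l • h₂ := by
    intro l hl hlq
    haveI := Fact.mk hl
    have e := periodHomPair_heckeFormsLin (N * q * q) l h₁ h₂
    rw [hh, heckeHom_twistHom hc l hlq, ← hh, ← map_smul] at e
    exact ⟨congrArg Prod.fst (hinj e), congrArg Prod.snd (hinj e)⟩
  have hlev : N * q * q = N * q ^ 2 := by ring
  -- the newform
  obtain ⟨h₀, hh₀, heig₀⟩ : ∃ h₀ : S2 (N * q * q), h₀ ≠ 0 ∧ ∀ (l : ℕ) (hl : l.Prime), l ≠ q →
      Newforms.opAll (N * q * q) ⟨l, hl⟩ h₀ = twistedLam χ lam l • h₀ := by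
    by_cases h1 : h₁ = 0
    · refine ⟨h₂, fun h2 ↦ hne0 ?_, fun l hl hlq ↦ (heig l hl hlq).2⟩
      rw [← hh, h1, h2]
      exact map_zero _
    · exact ⟨h₁, h1, fun l hl hlq ↦ (heig l hl hlq).1⟩
  obtain ⟨f, hf, hfl⟩ := Newforms.exists_isNormalizedEigenform_of_eigenvector (∅ : Set ℕ)
    (twistedLam χ lam) h₀ hh₀ fun l hl hlN _ ↦ by
      rw [← Newforms.opAll_of_not_dvd hl hlN]
      exact heig₀ l hl fun e ↦ hlN (e ▸ dvd_mul_left q (N * q))
  obtain ⟨M, hM0, hMN, g, hg, hgf⟩ := Newforms.exists_newform hf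
  have hgl : ∀ l : ℕ, l.Prime → ¬ l ∣ N → l ≠ q → qCoeff g l = twistedLam χ lam l := by
    intro l hl hlN hlq
    have hlN' : ¬ l ∣ N * q * q := fun h ↦ by
      rcases hl.dvd_mul.1 h with h | h
      · rcases hl.dvd_mul.1 h with h | h
        · exact hlN h
        · exact hlq ((Nat.prime_dvd_prime_iff_eq hl hqp).1 h)
      · exact hlq ((Nat.prime_dvd_prime_iff_eq hl hqp).1 h)
    rw [hgf l hl hlN', hfl l hl hlN' (Set.notMem_empty l)]
  refine ⟨M, g, hg, hlev ▸ hMN, ?_, fun l hl hlN hlq ↦ hgl l hl hlN hlq⟩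
  haveI : NeZero M := ⟨hM0.ne'⟩
  have hle : M.factorization q ≤ 2 := by
    have := (Nat.factorization_le_iff_dvd hM0.ne' (NeZero.ne _)).2 (hlev ▸ hMN) q
    rw [Nat.factorization_mul (NeZero.ne N) (pow_ne_zero 2 hqp.ne_zero), Finsupp.add_apply,
      Nat.factorization_eq_zero_of_not_dvd (Fact.out : ¬ q ∣ N), hqp.factorization_pow,
      Finsupp.single_eq_same, zero_add] at this
    exact this
  by_contra hne2
  -- otherwise the level divides `N q` and the averaged twist vanishes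
  have hMdvd : M ∣ N * q := by
    have h2 : ¬ q ^ 2 ∣ M := fun h ↦ by
      have := (hqp.pow_dvd_iff_le_factorization hM0.ne').1 h
      omega
    by_cases hqM : q ∣ M
    · obtain ⟨M', rfl⟩ := hqM
      have hqM' : ¬ q ∣ M' := fun h ↦ h2 (by rw [sq]; exact mul_dvd_mul_left q h)
      have hMN' : M' ∣ N * q := Nat.dvd_of_mul_dvd_mul_left hqp.pos (by
        rw [mul_comm q (N * q)]
        exact hMN)
      rw [mul_comm q M']
      exact mul_dvd_mul_right ((Nat.Coprime.symm (hqp.coprime_iff_not_dvd.2 hqM')).dvd_of_dvd_mul_right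
        hMN') q
    · exact Nat.Coprime.dvd_of_dvd_mul_right (hqp.coprime_iff_not_dvd.2 hqM).symm hMN
  have hrec_g : ∀ (l : ℕ) (hl : l.Prime), l ≠ q →
      IsRec l (qCoeff g l) (if l ∣ M then 0 else (l : ℂ)) (qCoeff g) := fun l hl _ ↦
    isRec_of_eigen g hl (Newforms.opAll_apply_of_isNormalizedEigenform hg.1 ⟨l, hl⟩)
  have hkill : ∀ h : S2 (N * q * q), (∀ (l : ℕ) (hl : l.Prime), l ≠ q →
      Newforms.opAll (N * q * q) ⟨l, hl⟩ h = twistedLam χ lam l • h) →
      mtw (psiInv χ) N (⇑h ∣[(2 : ℤ)] ModularForm.heckeMatrix q 0) = 0 := by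
    intro h he
    have hT : ∀ l ∈ N.primeFactors, l.Prime := fun l hl ↦ Nat.prime_of_mem_primeFactors hl
    have := mtw_eq_zero_of_system (psiInv χ) (psiInv_ne_one χ hη) hNq hMdvd
      (Newforms.raiseLin hlev.dvd h) g hg.1.qCoeff_one N.primeFactors hT
      (fun hq' ↦ (Fact.out : ¬ q ∣ N) (Nat.dvd_of_mem_primeFactors hq'))
      (twistedLam χ lam) (fun l ↦ if l ∣ N * q * q then 0 else (l : ℂ))
      (qCoeff g) (fun l ↦ if l ∣ M then 0 else (l : ℂ))
      (fun l hl hlq ↦ by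
        rw [Newforms.coe_raiseLin]
        exact isRec_of_eigen h hl (he l hl hlq))
      hrec_g fun l hl hlq hlT ↦ by
        have hlN : ¬ l ∣ N := fun h ↦ hlT (Nat.mem_primeFactors.2 ⟨hl, h, NeZero.ne N⟩)
        have h1 : ¬ l ∣ N * q * q := fun h ↦ by
          rcases hl.dvd_mul.1 h with h | h
          · rcases hl.dvd_mul.1 h with h | h
            · exact hlN h
            · exact hlq ((Nat.prime_dvd_prime_iff_eq hl hqp).1 h)
          · exact hlq ((Nat.prime_dvd_prime_iff_eq hl hqp).1 h)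
        have h3 : ¬ l ∣ M := fun h ↦ h1 (h.trans (hMdvd.trans (dvd_mul_right _ q)))
        exact ⟨(hgl l hl hlN hlq).symm, by simp only [if_neg h1, if_neg h3]⟩
    rwa [Newforms.coe_raiseLin] at this
  obtain ⟨b, hb⟩ := eq_cobound_of_avgPer hη hα a hUa fun k ↦ by
    rw [← hh]
    exact avgPer_periodHomPair_eq_zero _ h₁ h₂ (hkill h₁ fun l hl hlq ↦ (heig l hl hlq).1)
      (hkill h₂ fun l hl hlq ↦ (heig l hl hlq).2) k
  exact hne b hb

end Fermat.Agent.TWLoc
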