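import Fermat.Agent.TWLoc.SpanZero
import Fermat.Prelude.Def_ModularForm_HeckeOperator
import Mathlib.NumberTheory.ModularForms.CongruenceSubgroups

/-!
# The averaged twist of a function invariant modulo `q`

For `φ : ℍ → ℂ` invariant under `Γ₀(N) ∩ Γ(q)` we define
`mtw ψ φ = ∑_e ∑_u ψ(u) φ|(T^u n(e))` (weight two) and show:
it kills functions invariant under `{γ ∈ Γ₀(N) | q ∣ b}`, kills `T`-invariant functions, and
commutes up to `ψ(l)` with `φ ↦ φ|diag(l, 1)`.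
-/

set_option autoImplicit false

noncomputable section

open Matrix UpperHalfPlane CongruenceSubgroup ModularForm
open scoped MatrixGroups ModularForm

namespace Fermat.Agent.TWLoc

variable {q : ℕ} [Fact q.Prime]

/-- Reduction modulo `q`. -/
abbrev redQ (q : ℕ) : SL(2, ℤ) →* SL(2, ZMod q) :=
  Matrix.SpecialLinearGroup.map (Int.castRingHom (ZMod q))

lemma redQ_apply (x : SL(2, ℤ)) (i j : Fin 2) : redQ q x i j = ((x i j : ℤ) : ZMod q) := rfl

lemma exists_lift {N : ℕ} (hN : (N : ZMod q) ≠ 0) (g : SL(2, ZMod q)) :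
    ∃ x ∈ Gamma0 N, redQ q x = g := by
  suffices g ∈ (Gamma0 N).map (redQ q) by simpa [Subgroup.mem_map] using this
  set S := (Gamma0 N).map (redQ q) with hS
  have hup : ∀ x : ZMod q, upU x ∈ S := fun x ↦ by
    refine ⟨⟨!![1, (x.val : ℤ); 0, 1], by simp [det_fin_two]⟩, ?_, ?_⟩
    · exact Gamma0_mem.mpr (by simp)
    · ext i j
      fin_cases i <;> fin_cases j <;> simp [redQ_apply, coe_upU]
  have hlow : ∀ x : ZMod q, lowU x ∈ S := fun x ↦ by
    refine ⟨⟨!![1, 0; (N : ℤ) * ((x / N).val : ℤ), 1], by simp [det_fin_two]⟩, ?_, ?_⟩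
    · exact Gamma0_mem.mpr (by simp)
    · ext i j
      fin_cases i <;> fin_cases j <;> simp [redQ_apply, coe_lowU, mul_div_cancel₀ _ hN]
  have key : ∀ g : SL(2, ZMod q), g 1 0 ≠ 0 → g ∈ S := by
    intro g hc
    have hg : g = upU ((g 0 0 - 1) / g 1 0) * lowU (g 1 0) * upU ((g 1 1 - 1) / g 1 0) := by
      have hdet := g.det_coe
      rw [det_fin_two] at hdet
      apply Subtype.ext
      simp only [Matrix.SpecialLinearGroup.coe_mul, coe_upU, coe_lowU]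
      ext i j
      fin_cases i <;> fin_cases j <;> simp <;> field_simp <;>
        first | ring1 | linear_combination hdet | linear_combination -hdet
    rw [hg]
    exact mul_mem (mul_mem (hup _) (hlow _)) (hup _)
  by_cases hc : g 1 0 = 0
  · have hd : g 1 1 ≠ 0 := fun h ↦ by
      have hdet := g.det_coe
      rw [det_fin_two, hc, h, mul_zero, mul_zero, sub_zero] at hdet
      exact zero_ne_one hdet
    have h := key (g * lowU 1) (by
      simpa [Matrix.SpecialLinearGroup.coe_mul, coe_lowU, Matrix.mul_apply, Fin.sum_univ_two, hc]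
        using hd)
    simpa using mul_mem h (inv_mem (hlow 1))
  · exact key g hc

/-- An element of `Γ₀(N)` with given reduction modulo `q` (or `1` if there is none). -/
def liftQ (N : ℕ) (g : SL(2, ZMod q)) : SL(2, ℤ) :=
  open scoped Classical in
  if h : ∃ x ∈ Gamma0 N, redQ q x = g then h.choose else 1

lemma liftQ_spec {N : ℕ} (hN : (N : ZMod q) ≠ 0) (g : SL(2, ZMod q)) :
    liftQ N g ∈ Gamma0 N ∧ redQ q (liftQ N g) = g := by
  rw [liftQ, dif_pos (exists_lift hN g)]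
  exact (exists_lift hN g).choose_spec

variable (q)

/-- Invariance under `Γ₀(N) ∩ Γ(q)`. -/
def GammaInv (N : ℕ) (φ : ℍ → ℂ) : Prop :=
  ∀ γ ∈ Gamma0 N, redQ q γ = 1 → φ ∣[(2 : ℤ)] γ = φ

/-- Invariance under `{γ ∈ Γ₀(N) | q ∣ b}`. -/
def LowInv (N : ℕ) (φ : ℍ → ℂ) : Prop :=
  ∀ γ ∈ Gamma0 N, ((γ 0 1 : ℤ) : ZMod q) = 0 → φ ∣[(2 : ℤ)] γ = φ

variable {q}

/-- The orbit map of `φ`. -/
def orbit (N : ℕ) (φ : ℍ → ℂ) (g : SL(2, ZMod q)) : ℍ → ℂ := φ ∣[(2 : ℤ)] liftQ N g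

/-- The averaged twist. -/
def mtw (ψ : MulChar (ZMod q) ℂ) (N : ℕ) (φ : ℍ → ℂ) : ℍ → ℂ :=
  ∑ u : ZMod q, ψ u • lowSum (orbit N φ) u (1 : SL(2, ZMod q))

variable {N : ℕ} {φ φ' : ℍ → ℂ}

lemma LowInv.gammaInv (h : LowInv q N φ) : GammaInv q N φ := fun γ hγ h1 ↦ by
  refine h γ hγ ?_
  rw [← redQ_apply, h1]
  simp

omit [Fact q.Prime] in
lemma GammaInv.mono {M : ℕ} (h : GammaInv q N φ) (hd : N ∣ M) : GammaInv q M φ := fun γ hγ h1 ↦ by
  refine h γ (Gamma0_mem.mpr ?_) h1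
  rw [ZMod.intCast_zmod_eq_zero_iff_dvd]
  exact (Int.natCast_dvd_natCast.mpr hd).trans
    ((ZMod.intCast_zmod_eq_zero_iff_dvd _ _).mp (Gamma0_mem.mp hγ))

omit [Fact q.Prime] in
lemma GammaInv.add (h : GammaInv q N φ) (h' : GammaInv q N φ') : GammaInv q N (φ + φ') :=
  fun γ hγ h1 ↦ by rw [SlashAction.add_slash, h γ hγ h1, h' γ hγ h1]

omit [Fact q.Prime] in
lemma GammaInv.smul (c : ℂ) (h : GammaInv q N φ) : GammaInv q N (c • φ) :=
  fun γ hγ h1 ↦ by rw [SL_smul_slash, h γ hγ h1]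

lemma orbit_eq (hN : (N : ZMod q) ≠ 0) (h : GammaInv q N φ) {x : SL(2, ℤ)} (hx : x ∈ Gamma0 N) :
    orbit N φ (redQ q x) = φ ∣[(2 : ℤ)] x := by
  obtain ⟨h1, h2⟩ := liftQ_spec hN (redQ q x)
  have := h (liftQ N (redQ q x) * x⁻¹) (mul_mem h1 (inv_mem hx))
    (by rw [map_mul, map_inv, h2, mul_inv_cancel])
  conv_rhs => rw [← this, ← SlashAction.slash_mul, inv_mul_cancel_right]
  rfl

lemma orbit_mul (hN : (N : ZMod q) ≠ 0) (h : GammaInv q N φ) (g g' : SL(2, ZMod q)) :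
    orbit N φ (g * g') = orbit N φ g ∣[(2 : ℤ)] liftQ N g' := by
  obtain ⟨h1, h2⟩ := liftQ_spec hN g
  obtain ⟨h1', h2'⟩ := liftQ_spec hN g'
  conv_lhs => rw [← h2, ← h2', ← map_mul, orbit_eq hN h (mul_mem h1 h1'), SlashAction.slash_mul]
  rfl

lemma orbit_mono {M : ℕ} (hN : (N : ZMod q) ≠ 0) (hM : (M : ZMod q) ≠ 0) (hd : N ∣ M)
    (h : GammaInv q N φ) (g : SL(2, ZMod q)) : orbit M φ g = orbit N φ g := by
  obtain ⟨h1, h2⟩ := liftQ_spec hM g
  have hx : liftQ M g ∈ Gamma0 N := Gamma0_mem.mpr <| by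
    rw [ZMod.intCast_zmod_eq_zero_iff_dvd]
    exact (Int.natCast_dvd_natCast.mpr hd).trans
      ((ZMod.intCast_zmod_eq_zero_iff_dvd _ _).mp (Gamma0_mem.mp h1))
  conv_rhs => rw [← h2, orbit_eq hN h hx]
  rfl

lemma mtw_mono (ψ : MulChar (ZMod q) ℂ) {M : ℕ} (hN : (N : ZMod q) ≠ 0)
    (hM : (M : ZMod q) ≠ 0) (hd : N ∣ M) (h : GammaInv q N φ) : mtw ψ M φ = mtw ψ N φ := by
  simp only [mtw, lowSum, orbit_mono hN hM hd h]

lemma mtw_add (ψ : MulChar (ZMod q) ℂ) : mtw ψ N (φ + φ') = mtw ψ N φ + mtw ψ N φ' := by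
  simp only [mtw, lowSum, orbit, SlashAction.add_slash, Finset.sum_add_distrib, smul_add]

lemma mtw_smul (ψ : MulChar (ZMod q) ℂ) (c : ℂ) : mtw ψ N (c • φ) = c • mtw ψ N φ := by
  simp only [mtw, lowSum, orbit, SL_smul_slash, Finset.smul_sum, smul_comm c]

/-- `mtw` kills functions invariant under the lower triangular elements modulo `q`. -/
theorem mtw_eq_zero_of_lowInv {ψ : MulChar (ZMod q) ℂ} (hψ : ψ ≠ 1) (hN : (N : ZMod q) ≠ 0)
    (h : LowInv q N φ) : mtw ψ N φ = 0 := by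
  have hG : ∀ b g : SL(2, ZMod q), b 0 1 = 0 → orbit N φ (b * g) = orbit N φ g := by
    intro b g hb
    obtain ⟨h1, h2⟩ := liftQ_spec hN b
    have e : φ ∣[(2 : ℤ)] liftQ N b = φ := h _ h1 (by rw [← redQ_apply, h2]; exact hb)
    rw [orbit_mul hN (LowInv.gammaInv h), orbit, e]
    rfl
  rw [mtw, Finset.sum_congr rfl (fun u _ ↦ show ψ u • lowSum (orbit N φ) u 1 =
      ψ u • lowSum (orbit N φ) 1 (1 : SL(2, ZMod q)) from ?_), ← Finset.sum_smul,
    MulChar.sum_eq_zero_of_ne_one hψ, zero_smul]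
  rcases eq_or_ne u 0 with rfl | hu
  · rw [MulChar.map_zero, zero_smul, zero_smul]
  · rw [lowSum_eq_lowSum_one hG hu]

/-- `mtw` kills `T`-invariant functions. -/
theorem mtw_eq_zero_of_slash_T {ψ : MulChar (ZMod q) ℂ} (hψ : ψ ≠ 1) (hN : (N : ZMod q) ≠ 0)
    (h : GammaInv q N φ) (hT : φ ∣[(2 : ℤ)] ModularGroup.T = φ) : mtw ψ N φ = 0 := by
  have hpow : ∀ n : ℕ, φ ∣[(2 : ℤ)] (ModularGroup.T ^ n) = φ := fun n ↦ by
    induction n with
    | zero => rw [pow_zero, SlashAction.slash_one]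
    | succ n ih => rw [pow_succ, SlashAction.slash_mul, ih, hT]
  have hup : ∀ u g, orbit N φ (upU u * g) = orbit N φ (g : SL(2, ZMod q)) := fun u g ↦ by
    have hx : ModularGroup.T ^ u.val ∈ Gamma0 N := by
      rw [Gamma0_mem, ← zpow_natCast, ModularGroup.coe_T_zpow]
      simp
    have hr : redQ q (ModularGroup.T ^ u.val) = upU u := by
      ext i j
      rw [redQ_apply, ← zpow_natCast, ModularGroup.coe_T_zpow]
      fin_cases i <;> fin_cases j <;> simp [coe_upU]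
    rw [orbit_mul hN h, ← hr, orbit_eq hN h hx, hpow]
    rfl
  simp only [mtw, lowSum, mul_assoc, hup]
  rw [← Finset.sum_smul, MulChar.sum_eq_zero_of_ne_one hψ, zero_smul]

section Scale

variable {l : ℕ} [NeZero l]

/-- `φ ↦ φ|diag(l, 1)`. -/
def scaleOp (l : ℕ) (φ : ℍ → ℂ) : ℍ → ℂ := φ ∣[(2 : ℤ)] heckeDiagMatrix l

omit [NeZero l] in
lemma scaleOp_add : scaleOp l (φ + φ') = scaleOp l φ + scaleOp l φ' :=
  SlashAction.add_slash _ _ _ _

omit [NeZero l] in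
lemma scaleOp_smul (c : ℂ) : scaleOp l (c • φ) = c • scaleOp l φ := by
  rw [scaleOp, ModularForm.smul_slash, σ_heckeDiagMatrix]
  rfl

omit [NeZero l] in
lemma scaleOp_sum {α : Type*} (s : Finset α) (f : α → ℍ → ℂ) :
    scaleOp l (∑ i ∈ s, f i) = ∑ i ∈ s, scaleOp l (f i) := by
  classical
  induction s using Finset.induction with
  | empty => rw [Finset.sum_empty, Finset.sum_empty, scaleOp, SlashAction.zero_slash]
  | insert a s ha ih => rw [Finset.sum_insert ha, Finset.sum_insert ha, scaleOp_add, ih]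

omit [Fact q.Prime] in
lemma exists_conj_scale {x : SL(2, ℤ)} (hx : x ∈ Gamma0 (N * l)) :
    ∃ y ∈ Gamma0 N, heckeDiagMatrix l * Matrix.SpecialLinearGroup.mapGL ℝ x = Matrix.SpecialLinearGroup.mapGL ℝ y * heckeDiagMatrix l ∧
      y 0 0 = x 0 0 ∧ y 0 1 = l * x 0 1 ∧ l * y 1 0 = x 1 0 ∧ y 1 1 = x 1 1 := by
  obtain ⟨c, hc⟩ : ((N * l : ℕ) : ℤ) ∣ x 1 0 :=
    (ZMod.intCast_zmod_eq_zero_iff_dvd _ _).mp (Gamma0_mem.mp hx)
  push_cast at hc
  have hdet := x.det_coe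
  rw [det_fin_two] at hdet
  refine ⟨⟨!![x 0 0, l * x 0 1; N * c, x 1 1], ?_⟩, Gamma0_mem.mpr (by simp), ?_, rfl, rfl, ?_, rfl⟩
  · rw [det_fin_two_of]
    linear_combination hdet + x 0 1 * hc
  · apply Units.ext
    rw [Units.val_mul, Units.val_mul, val_heckeDiagMatrix (NeZero.ne l)]
    ext i j
    have hc' : ((x 1 0 : ℤ) : ℝ) = (N : ℝ) * l * c := by exact_mod_cast hc
    fin_cases i <;> fin_cases j <;>
      simp [Matrix.mul_apply, Fin.sum_univ_two, hc'] <;> ring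
  · show (l : ℤ) * (N * c) = x 1 0
    rw [hc]; ring

variable (hl : (l : ZMod q) ≠ 0)
include hl

lemma GammaInv.scaleOp (h : GammaInv q N φ) : GammaInv q (N * l) (scaleOp l φ) := by
  intro x hx h1
  obtain ⟨y, hy, he, h00, h01, h10, h11⟩ := exists_conj_scale hx
  have e : ∀ i j, ((x i j : ℤ) : ZMod q) = (1 : SL(2, ZMod q)) i j := fun i j ↦ by
    rw [← redQ_apply, h1]
  have hy1 : redQ q y = 1 := by
    ext i j
    rw [redQ_apply]
    fin_cases i <;> fin_cases j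
    · simpa [h00] using e 0 0
    · simp [h01, show ((x 0 1 : ℤ) : ZMod q) = 0 by simpa using e 0 1]
    · have : (l : ZMod q) * ((y 1 0 : ℤ) : ZMod q) = 0 := by
        rw [← Int.cast_natCast l, ← Int.cast_mul, h10]
        simpa using e 1 0
      simpa [hl] using this
    · simpa [h11] using e 1 1
  show (φ ∣[(2 : ℤ)] heckeDiagMatrix l) ∣[(2 : ℤ)] Matrix.SpecialLinearGroup.mapGL ℝ x = _
  rw [← SlashAction.slash_mul, he, SlashAction.slash_mul]
  show (φ ∣[(2 : ℤ)] y) ∣[(2 : ℤ)] heckeDiagMatrix l = _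
  rw [h y hy hy1]
  rfl

lemma orbit_scaleOp (hN : (N : ZMod q) ≠ 0) (h : GammaInv q N φ) {g g' : SL(2, ZMod q)}
    (h00 : g' 0 0 = g 0 0) (h01 : g' 0 1 = l * g 0 1) (h10 : l * g' 1 0 = g 1 0)
    (h11 : g' 1 1 = g 1 1) :
    orbit (N * l) (scaleOp l φ) g = scaleOp l (orbit N φ g') := by
  have hNl : ((N * l : ℕ) : ZMod q) ≠ 0 := by push_cast; exact mul_ne_zero hN hl
  obtain ⟨hx, hr⟩ := liftQ_spec hNl g
  obtain ⟨y, hy, he, e00, e01, e10, e11⟩ := exists_conj_scale hx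
  have e : ∀ i j, ((liftQ (q := q) (N * l) g i j : ℤ) : ZMod q) = g i j := fun i j ↦ by
    rw [← redQ_apply, hr]
  have hy' : redQ q y = g' := by
    ext i j
    rw [redQ_apply]
    fin_cases i <;> fin_cases j
    · simpa [e00, h00] using e 0 0
    · simpa [e01, h01] using Or.inl (e 0 1)
    · refine mul_left_cancel₀ hl ?_
      rw [← Int.cast_natCast l, ← Int.cast_mul]
      simpa [e10, h10] using e 1 0
    · simpa [e11, h11] using e 1 1
  rw [← hy', orbit_eq hN h hy, orbit]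
  show (φ ∣[(2 : ℤ)] heckeDiagMatrix l) ∣[(2 : ℤ)]
      Matrix.SpecialLinearGroup.mapGL ℝ (liftQ (q := q) (N * l) g) =
    (φ ∣[(2 : ℤ)] Matrix.SpecialLinearGroup.mapGL ℝ y) ∣[(2 : ℤ)] heckeDiagMatrix l
  rw [← SlashAction.slash_mul, he, SlashAction.slash_mul]

/-- `mtw` commutes with scaling up to the value of the character. -/
theorem mtw_scaleOp (ψ : MulChar (ZMod q) ℂ) (hN : (N : ZMod q) ≠ 0) (h : GammaInv q N φ) :
    mtw ψ (N * l) (scaleOp l φ) = ψ (l : ZMod q)⁻¹ • scaleOp l (mtw ψ N φ) := by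
  have key : ∀ u e : ZMod q, orbit (N * l) (scaleOp l φ) (upU u * lowU e * 1) =
      scaleOp l (orbit N φ (upU ((l : ZMod q) * u) * lowU (e / (l : ZMod q)) * 1)) := fun u e ↦ by
    refine orbit_scaleOp hl hN h ?_ ?_ ?_ ?_ <;>
      simp [coe_upU, coe_lowU, Matrix.mul_apply, Fin.sum_univ_two] <;> field_simp
  simp only [mtw, lowSum, key, scaleOp_sum, scaleOp_smul, Finset.smul_sum, smul_smul]
  refine Fintype.sum_equiv (Equiv.mulLeft₀ (l : ZMod q) hl) _ _ fun u ↦ ?_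
  refine Fintype.sum_equiv (Equiv.divRight₀ (l : ZMod q) hl) _ _ fun e ↦ ?_
  simp only [Equiv.mulLeft₀_apply, Equiv.divRight₀_apply]
  rw [← map_mul, inv_mul_cancel_left₀ hl]

end Scale

end Fermat.Agent.TWLoc
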