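import Fermat.Agent.TWLoc.TwistKill
import Fermat.Agent.TW.Mod.TwistInj
import Fermat.Agent.MF.Primitive
import Fermat.Agent.HK.HeckePeriods

/-!
# Periods of the averaged twist

If `mtw ψ (h|diag(1, q)) = 0` then the periods of `h` satisfy the linear identity `avgPer ψ = 0`
on the elements `congLevel k`.
-/

set_option autoImplicit false

noncomputable section

open UpperHalfPlane CongruenceSubgroup ModularCurve
open scoped MatrixGroups ModularForm
open Fermat.Agent.TW.Mod

namespace Fermat.Agent.TWLoc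

variable {N q : ℕ} [hq : Fact q.Prime] [hqN : Fact (¬ q ∣ N)]

lemma cast_ne_zero_of_fact : (N : ZMod q) ≠ 0 := by
  rw [Ne, ZMod.natCast_eq_zero_iff]
  exact Fact.out

variable (N) in
/-- `liftQ` as an element of `Γ₀(N)`. -/
def liftG (g : SL(2, ZMod q)) : Gamma0 N := ⟨liftQ N g, (liftQ_spec cast_ne_zero_of_fact g).1⟩

lemma redModHom_eq (g : Gamma0 N) : redModHom N q g = redQ q (g : SL(2, ℤ)) := rfl

lemma redModHom_liftG (g : SL(2, ZMod q)) : redModHom N q (liftG N g) = g :=
  (liftQ_spec (q := q) cast_ne_zero_of_fact g).2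

lemma congLevel_mul (k l : congSub N q) : congLevel (k * l) = congLevel k * congLevel l := by
  haveI : NeZero q := ⟨hq.out.ne_zero⟩
  refine Subtype.ext ?_
  show ((downMap (congUpper (k * l)) : Gamma0 (N * q)) : SL(2, ℤ)) = _
  rw [show congUpper (k * l) = congUpper k * congUpper l from rfl, downMap_mul]
  rfl

omit hqN in
lemma congConj_mul_right (g : Gamma0 N) (k l : congSub N q) :
    congConj g (k * l) = congConj g k * congConj g l :=
  Subtype.ext (by simp [congConj, mul_assoc])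

/-- Values on `congLevel` of conjugates only depend on the reduction of the conjugator. -/
lemma congLevel_congConj_congr {A : Type*} [AddCommGroup A]
    (H : Additive (Gamma0 (N * q * q)) →+ A) {g g' : Gamma0 N}
    (h : redModHom N q g = redModHom N q g') (k : congSub N q) :
    H (Additive.ofMul (congLevel (congConj g k))) =
      H (Additive.ofMul (congLevel (congConj g' k))) := by
  obtain ⟨m, rfl⟩ : ∃ m : congSub N q, g' = (m : Gamma0 N) * g := by
    refine ⟨⟨g' * g⁻¹, ?_⟩, by simp⟩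
    show g' * g⁻¹ ∈ (redModHom N q).ker
    rw [MonoidHom.mem_ker, map_mul, map_inv, h, mul_inv_cancel]
  have e : congConj (m : Gamma0 N) (congConj g k) * m = m * congConj g k :=
    Subtype.ext (by simp [congConj, mul_assoc])
  have e' := congrArg (fun x ↦ H (Additive.ofMul (congLevel x))) e
  simp only [congLevel_mul, ofMul_mul, map_add] at e'
  rw [congConj_mul]
  rw [add_comm] at e'
  exact (add_left_cancel e').symm

variable (ψ : MulChar (ZMod q) ℂ)

/-- The averaged twist on periods. -/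
def avgPer (H : Additive (Gamma0 (N * q * q)) →+ ℂ) (k : congSub N q) : ℂ :=
  ∑ u : ZMod q, ψ u * ∑ e : ZMod q,
    H (Additive.ofMul (congLevel (congConj (liftG N (upU u * lowU e)) k)))

lemma avgPer_add (H H' : Additive (Gamma0 (N * q * q)) →+ ℂ) (k : congSub N q) :
    avgPer ψ (H + H') k = avgPer ψ H k + avgPer ψ H' k := by
  simp only [avgPer, AddMonoidHom.add_apply, Finset.sum_add_distrib, mul_add]

lemma avgPer_sub (H H' : Additive (Gamma0 (N * q * q)) →+ ℂ) (k : congSub N q) :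
    avgPer ψ (H - H') k = avgPer ψ H k - avgPer ψ H' k := by
  simp only [avgPer, AddMonoidHom.sub_apply, Finset.sum_sub_distrib, mul_sub]

section Invol

omit hqN in
lemma jConj_mem_congSub {k : Gamma0 N} (hk : k ∈ congSub N q) :
    Period.jConjGamma0 N k ∈ congSub N q := by
  have hk' := mem_congSub.1 hk
  refine mem_congSub.2 fun i j ↦ ?_
  show ((Period.jConjMat (matOf k) i j : ℤ) : ZMod q) = _
  fin_cases i <;> fin_cases j
  · simpa using hk' 0 0
  · simpa using hk' 0 1
  · simpa using hk' 1 0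
  · simpa using hk' 1 1

omit hqN in
/-- `k ↦ J k J` on `Γ₀(N) ∩ Γ(q)`. -/
def jCong (k : congSub N q) : congSub N q := ⟨Period.jConjGamma0 N k, jConj_mem_congSub k.2⟩

omit hqN in
lemma jCong_congConj (g : Gamma0 N) (k : congSub N q) :
    jCong (congConj g k) = congConj (Period.jConjGamma0 N g) (jCong k) :=
  Subtype.ext (by
    show Period.jConjGamma0 N (g * k * g⁻¹) = _
    rw [map_mul, map_mul, map_inv]
    rfl)

lemma jConj_congLevel (k : congSub N q) :
    Period.jConjGamma0 (N * q * q) (congLevel k) = congLevel (jCong k) := by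
  haveI : NeZero q := ⟨hq.out.ne_zero⟩
  refine Subtype.ext (Subtype.ext ?_)
  have hd : (q : ℤ) ∣ matOf (k : Gamma0 N) 0 1 := upperSub_dvd (congUpper k).2
  show Period.jConjMat !![matOf (k : Gamma0 N) 0 0, matOf (k : Gamma0 N) 0 1 / q;
      (q : ℤ) * matOf (k : Gamma0 N) 1 0, matOf (k : Gamma0 N) 1 1] =
    !![Period.jConjMat (matOf (k : Gamma0 N)) 0 0,
      Period.jConjMat (matOf (k : Gamma0 N)) 0 1 / q;
      (q : ℤ) * Period.jConjMat (matOf (k : Gamma0 N)) 1 0,
      Period.jConjMat (matOf (k : Gamma0 N)) 1 1]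
  simp only [Period.jConjMat, Matrix.of_apply, Matrix.cons_val', Matrix.cons_val_zero,
    Matrix.cons_val_one, Matrix.cons_val_fin_one, Matrix.empty_val', Int.neg_ediv_of_dvd hd,
    mul_neg]

lemma redModHom_jConj_liftG (u e : ZMod q) :
    redModHom N q (Period.jConjGamma0 N (liftG N (upU u * lowU e))) = upU (-u) * lowU (-e) := by
  have h : ∀ i j, ((matOf (liftG N (upU u * lowU e)) i j : ℤ) : ZMod q) =
      (upU u * lowU e : SL(2, ZMod q)) i j := fun i j ↦ by
    rw [← redModHom_apply, redModHom_liftG]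
  refine Matrix.SpecialLinearGroup.ext _ _ fun i j ↦ ?_
  rw [redModHom_apply]
  show ((Period.jConjMat (matOf (liftG N (upU u * lowU e))) i j : ℤ) : ZMod q) = _
  fin_cases i <;> fin_cases j <;>
    simp [Period.jConjMat, h, Matrix.SpecialLinearGroup.coe_mul, coe_upU, coe_lowU,
      Matrix.mul_apply, Fin.sum_univ_two] <;> ring

lemma avgPer_charInvolution (H : Additive (Gamma0 (N * q * q)) →+ ℂ) (k : congSub N q) :
    avgPer ψ (Period.charInvolution (N * q * q) ℂ ℂ H) k = ψ (-1) * avgPer ψ H (jCong k) := by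
  simp only [avgPer, Period.charInvolution_apply, toMul_ofMul, jConj_congLevel, jCong_congConj]
  rw [Finset.mul_sum, ← Equiv.sum_comp (Equiv.neg (ZMod q))]
  refine Finset.sum_congr rfl fun u _ ↦ ?_
  rw [show (Equiv.neg (ZMod q)) u = -u from rfl, ← mul_assoc, ← map_mul,
    show (-1 : ZMod q) * u = -u by ring, ← Equiv.sum_comp (Equiv.neg (ZMod q))]
  refine congrArg _ (Finset.sum_congr rfl fun e _ ↦ ?_)
  refine congLevel_congConj_congr H ?_ _
  rw [show (Equiv.neg (ZMod q)) e = -e from rfl, redModHom_jConj_liftG, redModHom_liftG,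
    neg_neg, neg_neg]

end Invol

section Analytic

variable [NeZero (N * q * q)]

omit hqN in
lemma heckeMatrix_mul_eq {x y : SL(2, ℤ)}
    (h : x.1 * !![1, 0; 0, (q : ℤ)] = !![1, 0; 0, (q : ℤ)] * y.1) :
    Matrix.SpecialLinearGroup.mapGL ℝ x * ModularForm.heckeMatrix q 0 =
      ModularForm.heckeMatrix q 0 * Matrix.SpecialLinearGroup.mapGL ℝ y := by
  have e : ((ModularForm.heckeMatrix q 0 : GL (Fin 2) ℝ) : Matrix (Fin 2) (Fin 2) ℝ) =
      (!![1, 0; 0, (q : ℤ)] : Matrix (Fin 2) (Fin 2) ℤ).map (Int.castRingHom ℝ) := by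
    rw [ModularForm.val_heckeMatrix hq.out.ne_zero]
    ext i j
    fin_cases i <;> fin_cases j <;> simp
  have h' := congrArg (fun M ↦ M.map (Int.castRingHom ℝ)) h
  simp only [Matrix.map_mul] at h'
  refine Units.ext ?_
  simp only [Units.val_mul, e, Matrix.SpecialLinearGroup.mapGL_coe_matrix]
  simpa [RingHom.mapMatrix_apply, algebraMap_int_eq] using h'

lemma isPrimitiveOf_sum {α : Type*} (s : Finset α) {F f : α → ℍ → ℂ}
    (h : ∀ a ∈ s, MF.Prim.IsPrimitiveOf (F a) (f a)) :
    MF.Prim.IsPrimitiveOf (∑ a ∈ s, F a) (∑ a ∈ s, f a) := by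
  classical
  induction s using Finset.induction with
  | empty =>
    intro τ
    simpa [Function.comp_def] using hasDerivAt_const (τ : ℂ) (0 : ℂ)
  | insert a s ha ih =>
    rw [Finset.sum_insert ha, Finset.sum_insert ha]
    exact (h a (Finset.mem_insert_self a s)).add
      (ih fun b hb ↦ h b (Finset.mem_insert_of_mem hb))

/-- Vanishing of the averaged twist on periods. -/
theorem avgPer_periodMap_eq_zero (h : CuspForm (Gamma0 (N * q * q)) 2)
    (h0 : mtw ψ N (⇑h ∣[(2 : ℤ)] ModularForm.heckeMatrix q 0) = 0) (k : congSub N q) :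
    avgPer ψ (periodMap (N * q * q) h) k = 0 := by
  classical
  set δ : GL (Fin 2) ℝ := ModularForm.heckeMatrix q 0
  set Φ := MF.Prim.prim (N * q * q) h
  let lu : ZMod q → ZMod q → SL(2, ℤ) := fun u e ↦ liftQ N (upU u * lowU e)
  let R : ℍ → ℂ := ∑ u : ZMod q, ψ u • ∑ e : ZMod q, fun w : ℍ ↦ Φ (δ • (lu u e • w))
  have hR : MF.Prim.IsPrimitiveOf R (mtw ψ N (⇑h ∣[(2 : ℤ)] δ)) := by
    refine isPrimitiveOf_sum _ fun u _ ↦ (isPrimitiveOf_sum _ fun e _ ↦ ?_).const_smul _
    rw [mul_one]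
    have h1 := HK.isPrimitiveOf_comp_heckeMatrix (p := q)
      (MF.Prim.prim_isPrimitiveOf (N * q * q) h) 0
    have h2 : (fun w : ℍ ↦ (q : ℂ)⁻¹ * h (ModularForm.heckeMatrix q 0 • w)) = ⇑h ∣[(2 : ℤ)] δ :=
      funext fun w ↦ (ModularForm.slash_heckeMatrix_apply 2 hq.out.ne_zero 0 _ w).symm
    rw [h2] at h1
    exact h1.comp_smul (lu u e)
  rw [h0] at hR
  have h00 : MF.Prim.IsPrimitiveOf (0 : ℍ → ℂ) 0 := fun τ ↦ by
    simpa [Function.comp_def] using hasDerivAt_const (τ : ℂ) (0 : ℂ)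
  have hconst : R (((k : Gamma0 N) : SL(2, ℤ)) • UpperHalfPlane.I) = R UpperHalfPlane.I := by
    simpa using hR.sub_eq h00 (((k : Gamma0 N) : SL(2, ℤ)) • UpperHalfPlane.I) UpperHalfPlane.I
  have hper : ∀ u e : ZMod q,
      periodMap (N * q * q) h
          (Additive.ofMul (congLevel (congConj (liftG N (upU u * lowU e)) k))) =
        Φ (δ • (lu u e • (((k : Gamma0 N) : SL(2, ℤ)) • UpperHalfPlane.I))) -
          Φ (δ • (lu u e • UpperHalfPlane.I)) := fun u e ↦ by
    haveI : NeZero q := ⟨hq.out.ne_zero⟩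
    set g := liftG N (upU u * lowU e)
    rw [MF.Prim.periodMap_eq _ _ _ (δ • (lu u e • UpperHalfPlane.I))]
    have hz : (((congLevel (congConj g k) : Gamma0 (N * q * q)) : SL(2, ℤ))) •
        (δ • (lu u e • UpperHalfPlane.I)) =
        δ • (lu u e • (((k : Gamma0 N) : SL(2, ℤ)) • UpperHalfPlane.I)) := by
      have e1 := heckeMatrix_mul_eq (x := ((congLevel (congConj g k) : Gamma0 (N * q * q)) : SL(2, ℤ)))
        (y := ((congConj g k : Gamma0 N) : SL(2, ℤ))) (matOf_downMap (congUpper (congConj g k)))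
      show Matrix.SpecialLinearGroup.mapGL ℝ
          ((congLevel (congConj g k) : Gamma0 (N * q * q)) : SL(2, ℤ)) •
          (δ • (Matrix.SpecialLinearGroup.mapGL ℝ (lu u e) • UpperHalfPlane.I)) =
        δ • (Matrix.SpecialLinearGroup.mapGL ℝ (lu u e) •
          (Matrix.SpecialLinearGroup.mapGL ℝ ((k : Gamma0 N) : SL(2, ℤ)) • UpperHalfPlane.I))
      rw [smul_smul, smul_smul, smul_smul, smul_smul, e1, mul_assoc, mul_assoc, ← map_mul,
        ← map_mul]
      congr 3
      show ((g * (k : Gamma0 N) * g⁻¹ : Gamma0 N) : SL(2, ℤ)) * (g : SL(2, ℤ)) = _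
      simp [mul_assoc]
      rfl
    rw [hz]
  simp only [avgPer, hper]
  simp only [R, Finset.sum_apply, Pi.smul_apply, smul_eq_mul] at hconst
  simp only [Finset.sum_sub_distrib, mul_sub]
  exact sub_eq_zero.2 hconst

/-- The same for `periodHomPair`. -/
theorem avgPer_periodHomPair_eq_zero (f g : CuspForm (Gamma0 (N * q * q)) 2)
    (hf : mtw ψ N (⇑f ∣[(2 : ℤ)] ModularForm.heckeMatrix q 0) = 0)
    (hg : mtw ψ N (⇑g ∣[(2 : ℤ)] ModularForm.heckeMatrix q 0) = 0) (k : congSub N q) :
    avgPer ψ (periodHomPair (N * q * q) (f, g)) k = 0 := by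
  obtain ⟨pml, hp, he⟩ := periodHomPair_def (N * q * q) (MF.Prim.existsPeriodMapLinear _)
  rw [he]
  simp only [LinearMap.coprod_apply, LinearMap.comp_apply, LinearMap.add_apply,
    LinearMap.sub_apply, LinearMap.id_apply, hp, avgPer_add, avgPer_sub, avgPer_charInvolution,
    avgPer_periodMap_eq_zero ψ f hf, avgPer_periodMap_eq_zero ψ g hg]
  simp

end Analytic

end Fermat.Agent.TWLoc
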