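import Fermat.Agent.TWLoc.TwistPeriod

/-!
# Vanishing of the averaged twist forces a twisted class to be a coboundary

For a `U_q`-eigen derivation `c` with non-zero eigenvalue and `η² ≠ 1`: if
`avgPer η⁻¹ (twistHom c) = 0` then `c` is a coboundary.
-/

set_option autoImplicit false

noncomputable section

open CongruenceSubgroup
open scoped MatrixGroups
open Fermat.Agent.TW.Mod

namespace Fermat.Agent.TWLoc

variable {N q : ℕ} [hq : Fact q.Prime] [hqN : Fact (¬ q ∣ N)]
variable (η : (ZMod q)ˣ →* ℂˣ) (c : Der (epsOf (sqTwistChar N η)) ℂ)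

/-- `η⁻¹` as a multiplicative character. -/
def psiInv : MulChar (ZMod q) ℂ := MulChar.ofUnitHom η⁻¹

omit hqN in
lemma psiInv_apply (x : ZMod q) : psiInv η x = extChar η⁻¹ x := by
  rcases eq_or_ne x 0 with rfl | hx
  · rw [extChar_zero, MulChar.map_zero]
  · obtain ⟨u, rfl⟩ : ∃ u : (ZMod q)ˣ, (u : ZMod q) = x := ⟨Units.mk0 x hx, rfl⟩
    rw [extChar_coe, psiInv, MulChar.ofUnitHom_coe]

omit hqN in
lemma psiInv_ne_one (hη : ∃ u, η u ^ 2 ≠ 1) : psiInv η ≠ 1 := by
  obtain ⟨u, hu⟩ := hη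
  intro h
  have h' := congrArg (fun χ : MulChar (ZMod q) ℂ ↦ χ (u : ZMod q)) h
  simp only [psiInv_apply, extChar_coe, MulChar.one_apply_coe, MonoidHom.inv_apply,
    Units.val_eq_one] at h'
  exact hu (by rw [inv_eq_one.1 h', one_pow])

lemma downVal_congr {g g' : Gamma0 N} (h : redModHom N q g = redModHom N q g') (k : congSub N q) :
    downVal η c (congConj g k) = downVal η c (congConj g' k) := by
  obtain ⟨m, rfl⟩ : ∃ m : congSub N q, g' = (m : Gamma0 N) * g := by
    refine ⟨⟨g' * g⁻¹, ?_⟩, by simp⟩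
    show g' * g⁻¹ ∈ (redModHom N q).ker
    rw [MonoidHom.mem_ker, map_mul, map_inv, h, mul_inv_cancel]
  rw [congConj_mul]
  refine (Eq.trans (downVal_conj η c (congUpper m) 1 (by simpa [congUpper] using congSub_cast m) _)
    ?_).symm
  rw [map_one, one_pow, Units.val_one, one_smul]

/-- The orbit map of `downVal` at `k`. -/
def downOrbit (k : congSub N q) (g : SL(2, ZMod q)) : ℂ := downVal η c (congConj (liftG N g) k)

/-- The nebentypus as a function on `ZMod q`. -/
def sqChar (x : ZMod q) : ℂ := extChar η x ^ 2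

omit hqN in
lemma sqChar_one : sqChar η 1 = 1 := by
  rw [sqChar, ← Units.val_one, extChar_coe, map_one, Units.val_one, one_pow]

lemma downOrbit_lower (k : congSub N q) (b g : SL(2, ZMod q)) (hb : b 0 1 = 0) :
    downOrbit η c k (b * g) = sqChar η (b 1 1) • downOrbit η c k g := by
  have hd : b 1 1 ≠ 0 := fun h ↦ by
    have hdet := b.det_coe
    rw [Matrix.det_fin_two, hb, h, mul_zero, zero_mul, sub_zero] at hdet
    exact zero_ne_one hdet
  have h : redModHom N q (liftG N (b * g)) = redModHom N q (liftG N b * liftG N g) := by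
    rw [map_mul, redModHom_liftG, redModHom_liftG, redModHom_liftG]
  have hm : liftG N b ∈ upperSub N q := by
    show ((matOf (liftG N b) 0 1 : ℤ) : ZMod q) = 0
    rw [← redModHom_apply, redModHom_liftG, hb]
  rw [downOrbit, downOrbit, downVal_congr η c h, congConj_mul,
    downVal_conj η c ⟨_, hm⟩ (Units.mk0 _ hd) (by rw [← redModHom_apply, redModHom_liftG]; rfl),
    sqChar, extChar, dif_neg hd]
  simp

lemma downOrbit_one (k : congSub N q) : downOrbit η c k 1 = downVal η c k := by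
  rw [downOrbit, downVal_congr η c (g' := 1) (by rw [redModHom_liftG, map_one])]
  congr 1
  exact Subtype.ext (by simp [congConj])

lemma conjVal_congConj_liftG (k : congSub N q) (g : SL(2, ZMod q)) (x : ZMod q) :
    conjVal η c (congConj (liftG N g) k) x = downOrbit η c k (upU x * g) := by
  haveI : NeZero q := ⟨hq.out.ne_zero⟩
  unfold conjVal
  rw [← congConj_mul, downOrbit]
  refine downVal_congr η c ?_ k
  rw [map_mul, redModHom_liftG, redModHom_liftG]
  congr 1
  refine Matrix.SpecialLinearGroup.ext _ _ fun i j ↦ ?_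
  rw [redModHom_apply]
  fin_cases i <;> fin_cases j <;> simp [coe_upU]

omit hqN in
lemma sum_sqChar_inv (hη : ∃ u, η u ^ 2 ≠ 1) :
    ∑ w : (ZMod q)ˣ, sqChar η ((w : ZMod q)⁻¹) = 0 := by
  have h := sum_units_char_eq_zero (η := (η ^ 2)⁻¹) fun e ↦ by
    obtain ⟨u, hu⟩ := hη
    exact hu (by
      have := DFunLike.congr_fun e u
      simpa using this)
  rw [← h]
  refine Finset.sum_congr rfl fun w _ ↦ ?_
  rw [sqChar, ← Units.val_inv_eq_inv_val, extChar_coe]
  simp

omit hqN in
lemma sqChar_mul (x y : ZMod q) : sqChar η (x * y) = sqChar η x * sqChar η y := by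
  rw [sqChar, sqChar, sqChar, extChar_mul, mul_pow]

/-- The sum over all `T^w n(e)` only sees the base point. -/
lemma sum_lowSum_downOrbit (hη : ∃ u, η u ^ 2 ≠ 1) (k : congSub N q) :
    ∑ w : ZMod q, lowSum (downOrbit η c k) w 1 = (q : ℂ) * downOrbit η c k 1 := by
  classical
  have hP := downOrbit_lower η c k
  set P := downOrbit η c k
  rw [← Finset.add_sum_erase _ _ (Finset.mem_univ (0 : ZMod q)),
    lowSum_zero hP (sqChar_one η), smul_eq_mul]
  suffices hrest : ∑ w ∈ Finset.univ.erase (0 : ZMod q), lowSum P w 1 = 0 by rw [hrest, add_zero]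
  have hw : ∀ w : ZMod q, w ≠ 0 → lowSum P w 1 = sqChar η w⁻¹ *
      (P swapU + ∑ x ∈ Finset.univ.erase (0 : ZMod q), sqChar η x * P (upU x)) := by
    intro w hw
    rw [lowSum, ← Finset.add_sum_erase _ _ (Finset.mem_univ (-w⁻¹)), mul_add, Finset.mul_sum]
    simp only [mul_one]
    congr 1
    · have : upU w * lowU (-w⁻¹) = lowTri w (1 - w⁻¹) hw * swapU := by
        apply Subtype.ext
        simp [coe_upU, coe_lowU, coe_lowTri, coe_swapU, hw]
      rw [this, hP _ _ (by simp [coe_lowTri]), smul_eq_mul]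
      simp [coe_lowTri]
    · refine (Finset.sum_bij (fun x _ ↦ 1 / x - 1 / w) ?_ ?_ ?_ ?_).symm
      · intro x hx
        simp only [Finset.mem_erase, Finset.mem_univ, and_true] at hx ⊢
        intro h
        rw [one_div, one_div, sub_eq_neg_self, inv_eq_zero] at h
        exact hx h
      · intro x _ y _ h
        simpa using h
      · intro e he
        simp only [Finset.mem_erase, Finset.mem_univ, and_true] at he
        have h1 : e + w⁻¹ ≠ 0 := fun h ↦ he (eq_neg_of_add_eq_zero_left h)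
        refine ⟨(e + w⁻¹)⁻¹, by simpa using h1, ?_⟩
        simp
      · intro x hx
        simp only [Finset.mem_erase, Finset.mem_univ, and_true] at hx
        rw [upU_mul_lowU_eq hw hx, hP _ _ (by simp [coe_lowTri]), smul_eq_mul]
        simp only [coe_lowTri, Matrix.of_apply, Matrix.cons_val', Matrix.cons_val_one,
          Matrix.cons_val_fin_one, inv_div]
        rw [div_eq_mul_inv, sqChar_mul]
        ring
  rw [Finset.sum_congr rfl fun w h ↦ hw w (Finset.ne_of_mem_erase h), ← Finset.sum_mul]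
  suffices h0 : ∑ w ∈ Finset.univ.erase (0 : ZMod q), sqChar η w⁻¹ = 0 by rw [h0, zero_mul]
  refine Eq.trans ?_ (sum_sqChar_inv η hη)
  refine Finset.sum_bij' (fun w hw ↦ Units.mk0 w (Finset.ne_of_mem_erase hw))
    (fun w _ ↦ (w : ZMod q)) (fun _ _ ↦ Finset.mem_univ _) (fun w _ ↦ by simp [w.ne_zero])
    (fun _ _ ↦ rfl) (fun w _ ↦ Units.mk0_val w _) fun w _ ↦ rfl

/-- `avgPer η⁻¹ (twistHom c) = η(-1) (q² - q) downVal`. -/
lemma avgPer_twistHom (hη : ∃ u, η u ^ 2 ≠ 1) (k : congSub N q) :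
    avgPer (psiInv η) (twistHom N η ℂ c) k =
      (η (-1) : ℂ) * (((q : ℂ) * q - q) * downVal η c k) := by
  classical
  haveI : NeZero q := ⟨hq.out.ne_zero⟩
  have hη1 : η ≠ 1 := fun h => by obtain ⟨u, hu⟩ := hη; exact hu (by simp [h])
  set P := downOrbit η c k
  have hH : ∀ g : SL(2, ZMod q),
      twistHom N η ℂ c (Additive.ofMul (congLevel (congConj (liftG N g) k))) =
        ∑ v : (ZMod q)ˣ, (η v : ℂ) * P (upU (v : ZMod q) * g) := fun g ↦ by
    simp only [twistHom_congLevel, conjVal_congConj_liftG, smul_eq_mul]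
    rfl
  have hY : ∀ u : ZMod q, ∑ e : ZMod q,
      twistHom N η ℂ c (Additive.ofMul (congLevel (congConj (liftG N (upU u * lowU e)) k))) =
        ∑ v : (ZMod q)ˣ, (η v : ℂ) * lowSum P ((v : ZMod q) + u) 1 := fun u ↦ by
    simp only [hH, lowSum, mul_one, ← mul_assoc (upU _), upU_mul_upU, Finset.mul_sum]
    exact Finset.sum_comm
  have hv : ∀ v : (ZMod q)ˣ,
      ∑ u : ZMod q, psiInv η u * ((η v : ℂ) * lowSum P ((v : ZMod q) + u) 1) =
        ∑ w : ZMod q, ((η v : ℂ) * extChar η⁻¹ (w - v)) * lowSum P w 1 := fun v ↦ by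
    refine Fintype.sum_equiv (Equiv.addLeft (v : ZMod q)) _ _ fun u ↦ ?_
    simp [psiInv_apply]
    ring
  simp only [avgPer, hY, Finset.mul_sum]
  rw [Finset.sum_comm, Finset.sum_congr rfl fun v _ ↦ hv v, Finset.sum_comm]
  rw [Finset.sum_congr rfl fun w _ ↦ (Finset.sum_mul _ _ _).symm.trans
    (congrArg (· * lowSum P w 1) (sum_char_mul_inv_char hη1 w))]
  simp only [mul_assoc, ← Finset.mul_sum]
  congr 1
  have hsum := sum_lowSum_downOrbit η c hη k
  rw [← Finset.add_sum_erase _ _ (Finset.mem_univ (0 : ZMod q))] at hsum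
  rw [← Finset.add_sum_erase _ _ (Finset.mem_univ (0 : ZMod q)), if_pos rfl,
    Finset.sum_congr rfl (fun w hw ↦ by rw [if_neg (Finset.ne_of_mem_erase hw), neg_one_mul]),
    Finset.sum_neg_distrib, eq_sub_of_add_eq' hsum, lowSum_zero (downOrbit_lower η c k)
    (sqChar_one η), smul_eq_mul, downOrbit_one]
  ring

variable {η c} in
/-- A `U_q`-eigen class with vanishing averaged twist is zero. -/
theorem eq_cobound_of_avgPer (hη : ∃ u, η u ^ 2 ≠ 1) {α : ℂ} (hα : α ≠ 0) (a : ℂ)
    (hU : derT (sqTwistChar N η) ℂ q c = α • c + cobound (epsOf (sqTwistChar N η)) ℂ a)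
    (h0 : ∀ k : congSub N q, avgPer (psiInv η) (twistHom N η ℂ c) k = 0) :
    ∃ b : ℂ, c = cobound (epsOf (sqTwistChar N η)) ℂ b := by
  classical
  haveI : NeZero q := ⟨hq.out.ne_zero⟩
  have hqq : (q : ℂ) * q - q ≠ 0 := by
    rw [← mul_sub_one]
    refine mul_ne_zero (by exact_mod_cast hq.out.ne_zero) (sub_ne_zero.2 ?_)
    exact_mod_cast hq.out.ne_one
  have hdown : ∀ k : congSub N q, downVal η c k = 0 := fun k ↦ by
    have := h0 k
    rw [avgPer_twistHom η c hη k] at this
    simpa [hqq] using this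
  have hincl : ∀ k : congSub N q, inclVal η c k = 0 := fun k ↦ by
    have h := derT_congIncl η c k
    rw [hU] at h
    simp only [Submodule.coe_add, SetLike.val_smul, Pi.add_apply, Pi.smul_apply] at h
    rw [cobound_apply, eps_eq_of_cast η (congIncl N q k) 1 (by
      simpa [matOf_congIncl] using congSub_cast k)] at h
    simp only [conjVal, hdown, Finset.sum_const_zero, map_one, one_pow, Units.val_one, one_smul,
      sub_self, add_zero] at h
    exact (smul_eq_zero.1 h).resolve_left hα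
  let f : Gamma0 (N * q) →* Matrix.SpecialLinearGroup (Fin 2) (ZMod q) :=
    (redModHom N q).comp (Subgroup.inclusion fun g hg => by
      rw [Gamma0_mem, ZMod.intCast_zmod_eq_zero_iff_dvd] at hg ⊢
      exact dvd_trans (by simp) hg)
  have hK : ∀ g ∈ f.ker, (c : Gamma0 (N * q) → ℂ) g = 0 := fun g hg ↦
    hincl ⟨Subgroup.inclusion _ g, hg⟩
  haveI : Finite (Gamma0 (N * q) ⧸ f.ker) :=
    Finite.of_equiv _ (QuotientGroup.quotientKerEquivRange f).symm.toEquiv
  haveI := Fintype.ofFinite (Gamma0 (N * q) ⧸ f.ker)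
  let F : Gamma0 (N * q) ⧸ f.ker → ℂ := fun h => (c : Gamma0 (N * q) → ℂ) h.out
  have hF : ∀ g : Gamma0 (N * q), F g = (c : Gamma0 (N * q) → ℂ) g := by
    intro g
    obtain ⟨⟨k, hk⟩, e⟩ := QuotientGroup.mk_out_eq_mul f.ker g
    show (c : Gamma0 (N * q) → ℂ) (Quotient.out (g : Gamma0 (N * q) ⧸ f.ker)) = _
    rw [e, Der.map_mul c, hK k hk, smul_zero, add_zero]
  set n := Fintype.card (Gamma0 (N * q) ⧸ f.ker)
  have hn : (n : ℂ) ≠ 0 := by exact_mod_cast Fintype.card_ne_zero
  refine ⟨-(n : ℂ)⁻¹ * ∑ h, F h, ?_⟩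
  ext g
  rw [cobound_apply]
  have e : ∀ h, F ((g : Gamma0 (N * q) ⧸ f.ker) * h) =
      (c : Gamma0 (N * q) → ℂ) g + (epsOf (sqTwistChar N η) g : ℂ) * F h := by
    intro h
    conv_lhs => rw [← QuotientGroup.out_eq' h, ← QuotientGroup.mk_mul, hF, Der.map_mul c,
      smul_eq_mul]
  have hsum : ∑ h, F h = (n : ℂ) * (c : Gamma0 (N * q) → ℂ) g +
      (epsOf (sqTwistChar N η) g : ℂ) * ∑ h, F h := by
    conv_lhs => rw [← Equiv.sum_comp (Equiv.mulLeft (g : Gamma0 (N * q) ⧸ f.ker)) F]
    simp only [Equiv.coe_mulLeft, e, Finset.sum_add_distrib, ← Finset.mul_sum, Finset.sum_const,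
      Finset.card_univ, nsmul_eq_mul]
    rfl
  simp only [smul_eq_mul]
  field_simp
  linear_combination -hsum

end Fermat.Agent.TWLoc
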